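/-
Cluster T (bad reduction at `q ‖ N`), bridge M4b (helper16), part 0: valuation lemmas.

* `decomp_valuation_div_eq_one` : for `σ` in the decomposition group of a valuation subring `A` of
  an ALGEBRAIC extension `K / K₀` and `c ≠ 0`, the quotient `σ c / c` is a unit of `A`
  (`σ` has finite orbits, and preserves the maximal ideal).
* `valuation_eq_one_of_pow` : `b ^ n` a unit of `A`, `n ≠ 0` ⟹ `b` a unit of `A`.
-/
import Mathlib
import Fermat.Agent.S05.H5.Inertia

set_option autoImplicit false

noncomputable section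

namespace Fermat.Agent.BadRed

variable {K₀ K : Type*} [Field K₀] [Field K] [Algebra K₀ K]

/-- an algebraic element has a finite orbit under every automorphism. -/
theorem exists_pow_apply_eq_self_of_isAlgebraic (σ : K ≃ₐ[K₀] K) {c : K}
    (hc : IsAlgebraic K₀ c) : ∃ m : ℕ, 0 < m ∧ (σ ^ m) c = c := by
  classical
  have hint : IsIntegral K₀ c := hc.isIntegral
  have hfin : ((minpoly K₀ c).rootSet K).Finite := Polynomial.rootSet_finite _ _
  have hmem : ∀ i : ℕ, (σ ^ i) c ∈ (minpoly K₀ c).rootSet K := by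
    intro i
    rw [Polynomial.mem_rootSet]
    refine ⟨minpoly.ne_zero hint, ?_⟩
    rw [← AlgEquiv.coe_toAlgHom, Polynomial.aeval_algHom_apply, minpoly.aeval, map_zero]
  obtain ⟨i, j, hij, h⟩ : ∃ i j : ℕ, i ≠ j ∧ (σ ^ i) c = (σ ^ j) c := by
    by_contra hcon
    have hcon : ∀ i j : ℕ, i ≠ j → (σ ^ i) c ≠ (σ ^ j) c := fun i j hij h =>
      hcon ⟨i, j, hij, h⟩
    have hinj : Function.Injective fun i : ℕ =>
        (⟨(σ ^ i) c, hmem i⟩ : (minpoly K₀ c).rootSet K) := by
      intro i j hij
      by_contra hne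
      exact hcon i j hne (congrArg Subtype.val hij)
    have hF : Finite ((minpoly K₀ c).rootSet K) := hfin.to_subtype
    exact not_injective_infinite_finite _ hinj
  wlog hlt : i < j generalizing i j
  · exact this j i hij.symm h.symm (lt_of_le_of_ne (not_lt.mp hlt) hij.symm)
  refine ⟨j - i, Nat.sub_pos_of_lt hlt, ?_⟩
  have e : σ ^ j = σ ^ i * σ ^ (j - i) := by
    rw [← pow_add, Nat.add_sub_cancel' hlt.le]
  rw [e, AlgEquiv.mul_apply] at h
  exact ((σ ^ i).injective h).symm

variable (A : ValuationSubring K)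

theorem decomp_pow_mem (σ : K ≃ₐ[K₀] K) (hσ : σ ∈ A.decompositionSubgroup K₀) (i : ℕ) :
    σ ^ i ∈ A.decompositionSubgroup K₀ := Subgroup.pow_mem _ hσ i

/-- elements of the decomposition group preserve "valuation `< 1`". -/
theorem decomp_valuation_lt_one_iff (σ : K ≃ₐ[K₀] K) (hσ : σ ∈ A.decompositionSubgroup K₀)
    (y : K) : A.valuation (σ y) < 1 ↔ A.valuation y < 1 := by
  rw [← ValuationSubring.mem_nonunits_iff, ← ValuationSubring.mem_nonunits_iff]
  exact S05H5.decomp_apply_mem_nonunits_iff A σ hσ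

/-- elements of the decomposition group preserve "valuation `≤ 1`". -/
theorem decomp_valuation_le_one_iff (σ : K ≃ₐ[K₀] K) (hσ : σ ∈ A.decompositionSubgroup K₀)
    (y : K) : A.valuation (σ y) ≤ 1 ↔ A.valuation y ≤ 1 := by
  rw [ValuationSubring.valuation_le_one_iff, ValuationSubring.valuation_le_one_iff]
  exact S05H5.decomp_apply_mem_iff A σ hσ

/-- the telescoping product `∏_{i<m} σ^i (σ c / c) = σ^m c / c`. -/
theorem prod_pow_apply_div (σ : K ≃ₐ[K₀] K) {c : K} (hc : c ≠ 0) (m : ℕ) :
    ∏ i ∈ Finset.range m, (σ ^ i) (σ c / c) = (σ ^ m) c / c := by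
  induction m with
  | zero => simp [hc]
  | succ m ih =>
    rw [Finset.prod_range_succ, ih, map_div₀, pow_succ, AlgEquiv.mul_apply]
    have h1 : (σ ^ m) c ≠ 0 := (map_ne_zero_iff _ (σ ^ m).injective).mpr hc
    field_simp

/-- **Decomposition groups preserve the valuation** (algebraic extensions): `σ c / c` is a unit
of `A`. -/
theorem decomp_valuation_div_eq_one [Algebra.IsAlgebraic K₀ K] (σ : K ≃ₐ[K₀] K)
    (hσ : σ ∈ A.decompositionSubgroup K₀) {c : K} (hc : c ≠ 0) :
    A.valuation (σ c / c) = 1 := by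
  obtain ⟨m, hm, hmc⟩ := exists_pow_apply_eq_self_of_isAlgebraic σ
    (Algebra.IsAlgebraic.isAlgebraic (R := K₀) c)
  have hprod := prod_pow_apply_div σ hc m
  rw [hmc, div_self hc] at hprod
  have hval : ∏ i ∈ Finset.range m, A.valuation ((σ ^ i) (σ c / c)) = 1 := by
    rw [← map_prod, hprod, map_one]
  have hne : (Finset.range m).Nonempty := Finset.nonempty_range_iff.mpr hm.ne'
  rcases lt_trichotomy (A.valuation (σ c / c)) 1 with h | h | h
  · exfalso
    have hlt : ∏ i ∈ Finset.range m, A.valuation ((σ ^ i) (σ c / c)) <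
        ∏ _i ∈ Finset.range m, (1 : ValuationSubring.ValueGroup A) := by
      refine Finset.prod_lt_prod_of_nonempty ?_ ?_ hne
      · intro i _
        have h0 : (σ ^ i) (σ c / c) ≠ 0 :=
          (map_ne_zero_iff _ (σ ^ i).injective).mpr
            (div_ne_zero ((map_ne_zero_iff _ σ.injective).mpr hc) hc)
        exact zero_lt_iff.mpr ((Valuation.ne_zero_iff _).mpr h0)
      · intro i _
        exact (decomp_valuation_lt_one_iff A (σ ^ i) (decomp_pow_mem A σ hσ i) _).mpr h
    rw [hval, Finset.prod_const_one] at hlt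
    exact lt_irrefl _ hlt
  · exact h
  · exfalso
    have hlt : ∏ _i ∈ Finset.range m, (1 : ValuationSubring.ValueGroup A) <
        ∏ i ∈ Finset.range m, A.valuation ((σ ^ i) (σ c / c)) := by
      refine Finset.prod_lt_prod_of_nonempty ?_ ?_ hne
      · intro i _
        exact zero_lt_one
      · intro i _
        rw [← not_le]
        intro hle
        have := (decomp_valuation_le_one_iff A (σ ^ i) (decomp_pow_mem A σ hσ i) _).mp hle
        exact absurd h (not_lt.mpr this)
    rw [hval, Finset.prod_const_one] at hlt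
    exact lt_irrefl _ hlt

/-- `b ^ n` a unit of `A`, `n ≠ 0` ⟹ `b` a unit of `A`. -/
theorem valuation_eq_one_of_pow {b : K} {n : ℕ} (hn : n ≠ 0) (h : A.valuation (b ^ n) = 1) :
    A.valuation b = 1 := by
  rw [map_pow] at h
  rcases lt_trichotomy (A.valuation b) 1 with h1 | h1 | h1
  · exfalso
    have := pow_lt_one₀ zero_le h1 hn
    rw [h] at this
    exact lt_irrefl _ this
  · exact h1
  · exfalso
    have := one_lt_pow₀ h1 hn
    rw [h] at this
    exact lt_irrefl _ this

end Fermat.Agent.BadRed
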