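import Fermat.Agent.Lib.BadRed.Bridge.FunTargets
import Fermat.Agent.Lib.BadRed.Nodal.ToricKeyDef
import Fermat.Agent.Lib.BadRed.Mod.ValZero
import Fermat.Agent.Lib.GaussVal.Modular

set_option autoImplicit false

/-!
# Cluster T, assembly: the modular nodal package gives `ToricKeyAt D`  (architect helper81)

`ModularNodal D A` bundles what the modular side (`Mod/*`) and the nodal Deuring construction
(`Nodal/Deuring2*`, WP N4) deliver for a place `A` of `ℚ̄` over the prime `q = D.Q`,
`N = D.Q * D.R`: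

* a nodal package `N` on `F_N / ℚ̄` whose first valuation ring is the Gauss ring of `F_N` at `A`
  (`v_∞`) and whose second valuation ring is its transport by the Atkin-Lehner involution
  (`v_0 = v_∞ ∘ w_q`);
* the genus relation;
* every element of the inertia group of `A` is inertial for `N`.

`toricKeyAt_of_modularNodal`: together with the abstract statement `AbstractToricKeyStatement`
(WP N3) this gives `ToricKeyAt D`, the input of `Bridge/E1.lean`.
-/

noncomputable section

namespace Fermat.Agent.BadRed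

open ModularCurve AlgebraicCurve Fermat.Agent.F3 Fermat.Agent.F3G Fermat.Agent.GaussInt
  Fermat.Agent.AtkinLehner Fermat.Agent.Deuring

local notation "Qb" => AlgebraicClosure ℚ

/-- a natural number prime to `q` is a unit of a valuation ring over `q`. -/
theorem natCast_inv_mem_of_not_dvd' {L : Type*} [Field L] (A : ValuationSubring L) {q n : ℕ}
    (hq : q.Prime) (hA : A.LiesOverPrime q) (hn : ¬ q ∣ n) : ((n : L))⁻¹ ∈ A := by
  haveI : Fact q.Prime := ⟨hq⟩
  have hcop : n.Coprime q := ((Nat.Prime.coprime_iff_not_dvd hq).mpr hn).symm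
  obtain ⟨u, hu⟩ := Fermat.Agent.GaussVal.natCast_isUnit_of_coprime A q hA hcop
  have h1 : ((↑u⁻¹ : A) : L) * (n : L) = 1 := by
    have h2 := congrArg Subtype.val u.inv_mul
    rw [hu] at h2
    simpa using h2
  have h3 : ((n : L))⁻¹ = ((↑u⁻¹ : A) : L) := (eq_inv_of_mul_eq_one_left h1).symm
  rw [h3]
  exact (↑u⁻¹ : A).2

/-- The modular nodal package at a place `A` over `q = D.Q`. -/
structure ModularNodal (D : ALData) (A : ValuationSubring Qb) where
  /-- the residue function field of `v_∞` -/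
  Fk₁ : Type
  /-- the residue function field of `v_0` -/
  Fk₂ : Type
  /-- the nodes (supersingular points) -/
  ι : Type
  [instField₁ : Field Fk₁]
  [instAlgebra₁ : Algebra (IsLocalRing.ResidueField A) Fk₁]
  [instField₂ : Field Fk₂]
  [instAlgebra₂ : Algebra (IsLocalRing.ResidueField A) Fk₂]
  [instFintype : Fintype ι]
  /-- the nodal package -/
  N : NodalSetup Qb (FBar (D.Q * D.R)) (IsLocalRing.ResidueField A) Fk₁ Fk₂ ι
  genusRel : N.GenusRel
  A_eq : N.S₁.A = A
  /-- the first valuation ring is the Gauss ring -/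
  mem₁_iff : ∀ f : FBar (D.Q * D.R),
    f ∈ N.S₁.Ov ↔ (f : LaurentSeries Qb) ∈ gaussSub A (modularFunctionFieldBar (D.Q * D.R))
  /-- the first residue map is the Gauss residue map (tested on the value `1`) -/
  red₁_eq_one : ∀ f : FBar (D.Q * D.R), f ∈ N.S₁.Ov →
    gaussResFun A (modularFunctionFieldBar (D.Q * D.R)) (f : LaurentSeries Qb) = 1 →
      N.S₁.red f = 1
  /-- the second valuation ring is the transport of the first by `w_q` -/
  mem₂_iff : ∀ f : FBar (D.Q * D.R), f ∈ N.S₂.Ov ↔ atkinLehner D f ∈ N.S₁.Ov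
  red₂_eq_one : ∀ f : FBar (D.Q * D.R), f ∈ N.S₂.Ov → N.S₁.red (atkinLehner D f) = 1 →
    N.S₂.red f = 1
  /-- inertia is inertial -/
  inertial : ∀ τ ∈ A.inertiaSubgroupIn ℚ,
    N.IsInertial (arithmeticGalois (modularFunctionFieldFull (D.Q * D.R)) τ)

attribute [instance] ModularNodal.instField₁ ModularNodal.instAlgebra₁ ModularNodal.instField₂
  ModularNodal.instAlgebra₂ ModularNodal.instFintype

/-- **Assembly**: the modular nodal package and the abstract toric key statement give
`ToricKeyAt D`. -/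
theorem toricKeyAt_of_modularNodal (D : ALData)
    (h : D.Q.Prime → ∀ A : ValuationSubring Qb, A.LiesOverPrime D.Q →
      ∃ M : ModularNodal D A, AbstractToricKeyStatement M.N) :
    ToricKeyAt D := by
  intro hQ n hn A hA τ hτ g hg0 hdiv hgmem hgres hwmem hwres
  obtain ⟨M, hM⟩ := h hQ A hA
  have hn0 : (n : Qb) ≠ 0 := by
    have : n ≠ 0 := by
      rintro rfl
      exact hn (dvd_zero _)
    exact_mod_cast this
  -- `n` is a unit of `A`
  have hnA : ((n : Qb))⁻¹ ∈ M.N.S₁.A := by
    rw [M.A_eq]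
    exact natCast_inv_mem_of_not_dvd' A hQ hA hn
  have h1 : g ∈ M.N.S₁.Ov := (M.mem₁_iff g).mpr hgmem
  have h2 : M.N.S₁.red g = 1 := M.red₁_eq_one g h1 hgres
  have h3 : g ∈ M.N.S₂.Ov := (M.mem₂_iff g).mpr ((M.mem₁_iff _).mpr hwmem)
  have h4 : M.N.S₂.red g = 1 :=
    M.red₂_eq_one g h3 (M.red₁_eq_one _ ((M.mem₁_iff _).mpr hwmem) hwres)
  obtain ⟨u, c, hc, hu⟩ := hM M.genusRel n hn0 hnA _ (M.inertial τ hτ) g hg0 hdiv h1 h2 h3 h4
  -- absorb the constant
  have hnpos : 0 < n := Nat.pos_of_ne_zero (by rintro rfl; exact hn (dvd_zero _))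
  obtain ⟨b, hb⟩ := IsAlgClosed.exists_pow_nat_eq (c⁻¹) hnpos
  refine ⟨algebraMap Qb (FBar (D.Q * D.R)) b * u, ?_⟩
  have hcF : algebraMap Qb (FBar (D.Q * D.R)) c ≠ 0 := by simpa using hc
  show (algebraMap Qb (FBar (D.Q * D.R)) b * u) ^ n * g = galFun (D.Q * D.R) τ g
  rw [mul_pow, ← map_pow, hb, mul_assoc, hu, ← mul_assoc, ← map_mul, inv_mul_cancel₀ hc, map_one,
    one_mul]

end Fermat.Agent.BadRed
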