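import Fermat.Agent.Lib.BadRed.Bridge.FunTargets

set_option autoImplicit false

/-!
# Cluster T, bridge: `InertiaPowSq N → TorsionInertiaUnipotent N`  (helper81)

The dictionary between divisor classes killed by `n` and functions (helper42's
`F3/Galois/TorsionReduce.lean`) applied to the relation `uⁿ (τ f)² = τ² f · f`.
-/

noncomputable section

namespace Fermat.Agent.BadRed

open ModularCurve AlgebraicCurve Fermat.Agent.F3 Fermat.Agent.F3G

variable {N : ℕ} [NeZero N]

/-- **`InertiaPowSq N → TorsionInertiaUnipotent N`.** -/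
theorem torsionInertiaUnipotent_of_inertiaPowSq (h : InertiaPowSq N) :
    TorsionInertiaUnipotent N := by
  intro n q hq hqN hq2 hqn A hA τ hτ x hx
  have hn : n ≠ 0 := by
    rintro rfl
    exact hqn (dvd_zero q)
  have hx' : (n : ℤ) • x = 0 := by rwa [natCast_zsmul]
  obtain ⟨D, f, hf, rfl, hD⟩ := exists_div_of_zsmul_eq_zero (n : ℤ) x hx'
  set g := arithmeticGalois (modularFunctionFieldFull N) τ with hg
  set D' := SemilinearAut.degZeroSMulHom g D with hD'def
  set D'' := SemilinearAut.degZeroSMulHom g D' with hD''def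
  have hf' : g • f ≠ 0 := by simpa using hf
  have hf'' : g • (g • f) ≠ 0 := by simpa using hf
  have hD' : ∀ v, (n : ℤ) * (D' : Divisor (AlgebraicClosure ℚ) (FBar N)) v = v.ord (g • f) :=
    fun v => mul_smul_divisor_apply_eq_ord g (n : ℤ) hD v
  have hD'' : ∀ v, (n : ℤ) * (D'' : Divisor (AlgebraicClosure ℚ) (FBar N)) v
      = v.ord (g • (g • f)) :=
    fun v => mul_smul_divisor_apply_eq_ord g (n : ℤ) hD' v
  obtain ⟨u, hu⟩ := h n q hq hqN hq2 hqn A hA τ hτ f hf D hD
  have e1 : τ • Pic0.mk D = Pic0.mk D' := SemilinearAut.pic0_smul_mk g D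
  have e2 : τ • Pic0.mk D' = Pic0.mk D'' := SemilinearAut.pic0_smul_mk g D'
  rw [e1, e2]
  -- `E = 2 D'` with function `(τ f)²`
  have hE : ∀ v, (n : ℤ) * (((2 : ℕ) • D' : Divisor.degZero (K := AlgebraicClosure ℚ)
      (F := FBar N)) : Divisor (AlgebraicClosure ℚ) (FBar N)) v = v.ord ((g • f) ^ 2) := by
    intro v
    rw [AddSubgroup.coe_nsmul, Finsupp.smul_apply, nsmul_eq_mul, ← zpow_natCast (g • f) 2,
      Place.ord_zpow, ← hD' v]
    push_cast
    ring
  have key := mk_sub_add_nsmul_eq_zero_of_pow n hn 1 D'' ((2 : ℕ) • D') D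
    hf'' (pow_ne_zero 2 hf') hf hD'' hE hD (u := u) (by rw [pow_one]; exact hu)
  rw [one_smul] at key
  have e3 : Pic0.mk ((2 : ℕ) • D') = (2 : ℤ) • Pic0.mk D' := by
    have : Pic0.mk ((2 : ℕ) • D') = (2 : ℕ) • Pic0.mk D' :=
      map_nsmul (QuotientAddGroup.mk' _) 2 D'
    rw [this]
    exact (natCast_zsmul (Pic0.mk D') 2).symm
  rw [e3] at key
  exact key

end Fermat.Agent.BadRed
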