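import Fermat.Agent.Lib.BadRed.Bridge.S34Bridge
import Fermat.Agent.Lib.BadRed.Bridge.T1ofPow
import Fermat.Agent.Lib.BadRed.Bridge.E1Sep
import Fermat.Agent.Lib.BadRed.Bridge.Assembly
import Fermat.Agent.F3.FinalWire
import Fermat.Agent.F3.I2.Final
import Fermat.Agent.Lib.GaussInt.KeyAux

set_option autoImplicit false

/-!
# Cluster T, final bridge: S34 from the modular nodal package  (architect helper81)

`s34Statement_of_modularNodal` : the statement S34 (unipotent inertia at `q ‖ N`, `q ≠ p`) follows
from ONE hypothesis: for every Atkin-Lehner datum `D` with `D.Q` prime and every place `A` of `ℚ̄`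
over `D.Q` there is a modular nodal package `M : ModularNodal D A` with the abstract toric key
statement `AbstractToricKeyStatement M.N`.

All the other inputs are unconditional on main: the interface propositions of cluster A
(`EigenclassPadic`, `TorsionFinite`, `TorsionUnramified`, `TorsionFrobQuadratic`, `TorsionOpenStab`,
`HeckeGaloisComm`, all levels), the separating element (`gaussSepAt`, helper16), `(E1)`
(`inertiaPowSq_of_toricKey`, helper16) and `T1ofPow`.
-/

noncomputable section

namespace Fermat.Agent.BadRed

open ModularCurve AlgebraicCurve Fermat.Agent.F3 Fermat.Agent.F3G Fermat.Agent.GaussInt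
  Fermat.Agent.AtkinLehner

local notation "Qb" => AlgebraicClosure ℚ

/-- `T1` at level `N` from the modular nodal packages. -/
theorem torsionInertiaUnipotent_of_modularNodal (N : ℕ) [NeZero N]
    (h : ∀ D : ALData, D.Q * D.R = N → D.Q.Prime → ∀ A : ValuationSubring Qb,
      A.LiesOverPrime D.Q → ∃ M : ModularNodal D A, AbstractToricKeyStatement M.N) :
    TorsionInertiaUnipotent N :=
  torsionInertiaUnipotent_of_inertiaPowSq
    (inertiaPowSq_of_toricKey N (fun D hD => toricKeyAt_of_modularNodal D (h D hD)))

/-- **S34 from the modular nodal packages.** -/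
theorem s34Statement_of_modularNodal
    (h : ∀ D : ALData, D.Q.Prime → ∀ A : ValuationSubring Qb, A.LiesOverPrime D.Q →
      ∃ M : ModularNodal D A, AbstractToricKeyStatement M.N) :
    Fermat.Agent.S34.S34Statement :=
  s34Statement_of_interfaces (fun N _ =>
    ⟨Fermat.Agent.F3W.eigenclassPadic_of_kappaAllW (Fermat.Agent.F3I2.kappaAll N),
      Fermat.Agent.F3TF.torsionFinite N,
      Fermat.Agent.GaussInt.torsionUnramified_of_keyLemmaAt (Fermat.Agent.GaussInt.keyLemmaAt_all N),
      Fermat.Agent.GaussIntFP.torsionFrobQuadratic_of_keyLemmaAt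
        (Fermat.Agent.GaussInt.keyLemmaAt_all N) (Fermat.Agent.F3W.heckeInputs_all N),
      Fermat.Agent.F3.torsionOpenStab N, Fermat.Agent.F3G.heckeGaloisComm N,
      torsionInertiaUnipotent_of_modularNodal N (fun D _ => h D)⟩)

end Fermat.Agent.BadRed
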