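import Fermat.Agent.F3.Interfaces

set_option autoImplicit false

/-!
# Cluster T (bad reduction of `X₀(q N₀)` at `q ∥ N`): the TARGET propositions  (architect helper81)

Definitions only.

* `TorsionInertiaUnipotent N` (T1): for `q ∥ N`, `q ∤ n`, a place `A` of `ℚ̄` over `q` and `σ` in the
  inertia group of `A`, `(σ - 1)² = 0` on `J₀(N)(ℚ̄)[n]`.
  Consumer: `Bridge/S34Bridge.lean` (T1 + the interface propositions of cluster A ⟹ S34).
* `TorsionInertiaW0 N` (E1'): the function form of "inertia acts trivially on the toric part".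
-/

noncomputable section

namespace Fermat.Agent.BadRed

open ModularCurve AlgebraicCurve

/-- **(T1)** Inertia at a prime `q ∥ N` acts unipotently of level two on the prime-to-`q` torsion
of `J₀(N)(ℚ̄)`: `σ² x - 2 σ x + x = 0`. -/
def TorsionInertiaUnipotent (N : ℕ) [NeZero N] : Prop :=
  ∀ (n q : ℕ), q.Prime → q ∣ N → ¬ q ^ 2 ∣ N → ¬ q ∣ n →
    ∀ A : ValuationSubring (AlgebraicClosure ℚ), A.LiesOverPrime q →
      ∀ σ ∈ A.inertiaSubgroupIn ℚ, ∀ x : JZero N, n • x = 0 →
        σ • σ • x - (2 : ℤ) • (σ • x) + x = 0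

end Fermat.Agent.BadRed
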