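import Fermat.Agent.Lib.BadRed.Bridge.P1
import Fermat.Agent.Lib.BadRed.Bridge.NormProd

set_option autoImplicit false
set_option linter.style.haveILetI false
set_option linter.unusedSectionVars false

/-!
# Cluster T / S35: casts between equal levels, the Atkin–Lehner involution at a level `M`
(owner: helper36)

The Hecke side lives at level `N₀ * q` (`heckeAlphaBar`, `pushAlpha`, `coresPar`), helper84's
Atkin–Lehner involution `atkinLehner D` at level `D.Q * D.R` (`= q * N₀`).

* `castF h : F_M ≃ₐ F_{M'}` for `h : M = M'` (the identity on expansions);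
* `wAt D hM : F_M ≃ₐ F_M` for `hM : M = D.Q * D.R`: the involution `w_Q` at level `M`;
* `wAt_wAt`, `wAt_galFun`, `coe_wAt`;
* `frobToricKeyFor_wAt` : `FrobToricKeyAt D → FrobToricKeyFor M (wAt D hM) D.Q`;
* `isALExp_wAt` : `wAt` has the expansions required by the norm product formula
  (`Bridge/NormProd.lean`).
-/

noncomputable section

namespace Fermat.Agent.BadRed

open ModularCurve AlgebraicCurve Fermat.Agent.F3 Fermat.Agent.F3G Fermat.Agent.GaussInt
  Fermat.Agent.AtkinLehner Fermat.Agent.Kronecker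

local notation "Qb" => AlgebraicClosure ℚ

/-- the identity between the function fields of equal levels. -/
def castF {M M' : ℕ} (h : M = M') : FBar M ≃ₐ[Qb] FBar M' :=
  IntermediateField.equivOfEq (congrArg modularFunctionFieldBar h)

theorem castF_rfl {M : ℕ} (x : FBar M) : castF (rfl : M = M) x = x := by
  unfold castF
  rw [IntermediateField.equivOfEq_rfl]
  rfl

theorem coe_castF {M M' : ℕ} (h : M = M') (x : FBar M) :
    ((castF h x : FBar M') : LaurentSeries Qb) = (x : LaurentSeries Qb) := by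
  subst h
  rw [castF_rfl]

theorem castF_castF {M M' : ℕ} (h : M = M') (x : FBar M) : castF h.symm (castF h x) = x := by
  subst h
  rw [castF_rfl, castF_rfl]

theorem castF_castF' {M M' : ℕ} (h : M = M') (x : FBar M') : castF h (castF h.symm x) = x := by
  subst h
  rw [castF_rfl, castF_rfl]

theorem castF_galFun {M M' : ℕ} (h : M = M') (σ : Qb ≃ₐ[ℚ] Qb) (x : FBar M) :
    castF h (galFun M σ x) = galFun M' σ (castF h x) := by
  subst h
  rw [castF_rfl, castF_rfl]

/-- the Atkin–Lehner involution `w_Q` at a level `M = Q R`. -/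
def wAt (D : ALData) {M : ℕ} (hM : M = D.Q * D.R) : FBar M ≃ₐ[Qb] FBar M :=
  ((castF hM).trans (atkinLehner D)).trans (castF hM.symm)

theorem wAt_apply (D : ALData) {M : ℕ} (hM : M = D.Q * D.R) (x : FBar M) :
    wAt D hM x = castF hM.symm (atkinLehner D (castF hM x)) := by
  unfold wAt
  rw [AlgEquiv.trans_apply, AlgEquiv.trans_apply]

theorem coe_wAt (D : ALData) {M : ℕ} (hM : M = D.Q * D.R) (x : FBar M) :
    ((wAt D hM x : FBar M) : LaurentSeries Qb) =
      ((atkinLehner D (castF hM x) : FBar (D.Q * D.R)) : LaurentSeries Qb) := by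
  rw [wAt_apply, coe_castF]

theorem wAt_rfl (D : ALData) (x : FBar (D.Q * D.R)) :
    wAt D (rfl : D.Q * D.R = D.Q * D.R) x = atkinLehner D x := by
  rw [wAt_apply, castF_rfl, castF_rfl]

theorem wAt_eq_rfl (D : ALData) :
    wAt D (rfl : D.Q * D.R = D.Q * D.R) = atkinLehner D :=
  AlgEquiv.ext (wAt_rfl D)

theorem wAt_wAt (D : ALData) {M : ℕ} (hM : M = D.Q * D.R) (x : FBar M) :
    wAt D hM (wAt D hM x) = x := by
  subst hM
  rw [wAt_rfl, wAt_rfl]
  exact atkinLehner_atkinLehner D x

theorem wAt_galFun (D : ALData) {M : ℕ} (hM : M = D.Q * D.R) (σ : Qb ≃ₐ[ℚ] Qb) (z : FBar M) :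
    wAt D hM (galFun M σ z) = galFun M σ (wAt D hM z) := by
  subst hM
  rw [wAt_rfl, wAt_rfl]
  exact atkinLehner_galFun D σ z

/-- the Frobenius toric key at level `M`. -/
theorem frobToricKeyFor_wAt (D : ALData) {M : ℕ} (hM : M = D.Q * D.R) (hQ : D.Q.Prime)
    (h : FrobToricKeyAt D) : FrobToricKeyFor M (wAt D hM) D.Q := by
  subst hM
  rw [wAt_eq_rfl]
  exact frobToricKeyFor_of_at D hQ h

end Fermat.Agent.BadRed
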