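import Mathlib
import Fermat.Agent.Lib.BadRed.Bridge.AuxLevel

/-!
# Cluster T / S35: the general descent lemma from the auxiliary level  (helper94)

For a prime `ℓ ∤ N` and `n` prime to `ℓ + 1 = [F_{Nℓ} : F_N]`:

* `exists_pow_eq_of_heckeAlphaBar` : `G ∈ F_N`, `G ≠ 0`, is an `n`-th power in `F_{Nℓ}`
  `⟹` `G` is an `n`-th power in `F_N`  (norm + Bézout);
* `exists_const_mul_pow_of_heckeAlphaBar` : the same up to constants: `G = c u'ⁿ` in `F_{Nℓ}`
  `⟹` `G = c' uⁿ` in `F_N`;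
* `dvd_ord_heckeAlphaBar` : if `n ∣ ord_P f` at every place of `F_N` then `n ∣ ord_P f` at every
  place of `F_{Nℓ}`;
* `heckeAlphaBar_galFun` : the inclusion commutes with the Galois action.

Every multiplicative Galois identity "(word in `σ f`, `σ ∈ G_ℚ`) is an `n`-th power" descends from
the level `N ℓ` to the level `N` (`AuxLevel.powSq_descend` is the case of `τ²f · f / (τ f)²`; for
S35 take the word of `(φ² - q²)(φ² - 1)`).
-/

set_option autoImplicit false
set_option linter.unusedSectionVars false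
set_option linter.style.haveILetI false

noncomputable section

open AlgebraicCurve ModularCurve

namespace Fermat.Agent.BadRed.AuxLevel

open Fermat.Agent.F3G

local notation "Qb" => AlgebraicClosure ℚ

section

set_option synthInstance.maxHeartbeats 400000
set_option maxHeartbeats 1000000

variable (N ℓ : ℕ) [NeZero N] [NeZero ℓ]

/-- the inclusion `F_N ⊆ F_{Nℓ}` commutes with the Galois action (other direction of
`galFun_heckeAlphaBar`). -/
theorem heckeAlphaBar_galFun (τ : Qb ≃ₐ[ℚ] Qb) (x : FBar N) :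
    heckeAlphaBar Qb N ℓ (galFun N τ x) = galFun (N * ℓ) τ (heckeAlphaBar Qb N ℓ x) :=
  (galFun_heckeAlphaBar N ℓ τ x).symm

/-- divisibility of the divisor passes to the auxiliary level. -/
theorem dvd_ord_heckeAlphaBar (hℓ : ℓ.Prime) (hℓN : ¬ ℓ ∣ N) {n : ℕ} {f : FBar N}
    (hdiv : ∀ P : Place Qb (FBar N), (n : ℤ) ∣ P.ord f) (P : Place Qb (FBar (N * ℓ))) :
    (n : ℤ) ∣ P.ord (heckeAlphaBar Qb N ℓ f) := by
  letI := (heckeAlphaBar Qb N ℓ).toRingHom.toAlgebra
  obtain ⟨hfd, -⟩ := Fermat.Agent.Kronecker.finrank_heckeAlphaBar N ℓ hℓ hℓN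
  have hint : (heckeAlphaBar Qb N ℓ).toRingHom.IsIntegral := fun x =>
    (Algebra.IsIntegral.isIntegral (R := FBar N) x)
  rw [Place.ord_restrictAlong (heckeAlphaBar Qb N ℓ) hint P f]
  exact Dvd.dvd.mul_left (hdiv _) _

/-- **general descent**: an element of `F_N` which is an `n`-th power in `F_{Nℓ}` is an `n`-th
power in `F_N`, for `n` prime to `ℓ + 1`. -/
theorem exists_pow_eq_of_heckeAlphaBar (hℓ : ℓ.Prime) (hℓN : ¬ ℓ ∣ N) {n : ℕ}
    (hcop : Nat.Coprime (ℓ + 1) n) {G : FBar N} (hG : G ≠ 0) {u' : FBar (N * ℓ)}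
    (hu' : u' ^ n = heckeAlphaBar Qb N ℓ G) : ∃ u : FBar N, u ^ n = G := by
  letI := (heckeAlphaBar Qb N ℓ).toRingHom.toAlgebra
  obtain ⟨hfd, hrank⟩ := Fermat.Agent.Kronecker.finrank_heckeAlphaBar N ℓ hℓ hℓN
  have hnorm := congrArg (Algebra.norm (FBar N)) hu'
  have e : ∀ x : FBar N, Algebra.norm (FBar N) (heckeAlphaBar Qb N ℓ x) = x ^ (ℓ + 1) := by
    intro x
    have := Algebra.norm_algebraMap (S := FBar (N * ℓ)) x
    rw [hrank] at this
    exact this
  rw [map_pow, e] at hnorm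
  exact exists_pow_eq_of_coprime hG hcop hnorm

/-- **general descent, up to constants**: `G = c u'ⁿ` in `F_{Nℓ}` ⟹ `G = c' uⁿ` in `F_N`
(in fact `G` is an `n`-th power: `ℚ̄` is algebraically closed). -/
theorem exists_const_mul_pow_of_heckeAlphaBar (hℓ : ℓ.Prime) (hℓN : ¬ ℓ ∣ N) {n : ℕ}
    (hn : n ≠ 0) (hcop : Nat.Coprime (ℓ + 1) n) {G : FBar N} (hG : G ≠ 0) {u' : FBar (N * ℓ)}
    {c : Qb} (hu' : algebraMap Qb (FBar (N * ℓ)) c * u' ^ n = heckeAlphaBar Qb N ℓ G) :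
    ∃ u : FBar N, u ^ n = G := by
  obtain ⟨b, hb⟩ := IsAlgClosed.exists_pow_nat_eq c (Nat.pos_of_ne_zero hn)
  refine exists_pow_eq_of_heckeAlphaBar N ℓ hℓ hℓN hcop hG
    (u' := algebraMap Qb (FBar (N * ℓ)) b * u') ?_
  rw [mul_pow, ← map_pow, hb, hu']

end

end Fermat.Agent.BadRed.AuxLevel
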