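/-
Cluster T, bridge (helper81): the first half of (E1), for EVERY exponent `n ≠ 0`
(in particular `n = p ^ k` with `p` the residue characteristic; consumer: S33-new, helper66).

`f ≠ 0` with `n ∣ div f`, `τ` in the inertia group at `A | Q`:  there is `e ≠ 0` in `F_{QR}` such
that `g := τ f / f / e ^ n` satisfies `n ∣ div g`, and `g` reduces to `1` for BOTH Gauss valuations
`v_∞` and `v_0 = v_∞ ∘ w_Q`.   (Same proof as the first half of `pow_sq_of_toricKeyAt`; the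
hypothesis `¬ Q ∣ n` of that theorem is only used to apply the toric key.)
-/
import Fermat.Agent.Lib.BadRed.Bridge.E1
import Fermat.Agent.Lib.BadRed.Bridge.E1Sep

set_option autoImplicit false

noncomputable section

namespace Fermat.Agent.BadRed

open ModularCurve AlgebraicCurve Fermat.Agent.F3 Fermat.Agent.F3G Fermat.Agent.GaussInt
  Fermat.Agent.AtkinLehner

local notation "Qb" => AlgebraicClosure ℚ

/-- **(E1), first half, any exponent**: `τ f / f` is, up to an `n`-th power, congruent to `1` for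
both Gauss valuations. -/
theorem exists_redOne_galFun_div (D : ALData) [NeZero (D.Q * D.R)] (hQ : D.Q.Prime)
    (hsep : GaussSepAt D) (n : ℕ) (hn0 : n ≠ 0) (A : ValuationSubring Qb)
    (hA : A.LiesOverPrime D.Q) (τ : Qb ≃ₐ[ℚ] Qb) (hτ : τ ∈ A.inertiaSubgroupIn ℚ)
    (f : FBar (D.Q * D.R)) (hf : f ≠ 0)
    (hdiv : ∀ P : Place Qb (FBar (D.Q * D.R)), (n : ℤ) ∣ P.ord f) :
    ∃ e : FBar (D.Q * D.R), e ≠ 0 ∧
      galFun (D.Q * D.R) τ f / f / e ^ n ≠ 0 ∧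
      (∀ P : Place Qb (FBar (D.Q * D.R)),
        (n : ℤ) ∣ P.ord (galFun (D.Q * D.R) τ f / f / e ^ n)) ∧
      RedAt A (AlgEquiv.refl : FBar (D.Q * D.R) ≃ₐ[Qb] FBar (D.Q * D.R))
        (galFun (D.Q * D.R) τ f / f / e ^ n) 1 ∧
      RedAt A (atkinLehner D) (galFun (D.Q * D.R) τ f / f / e ^ n) 1 := by
  -- the two valuations
  obtain ⟨b₁, hb₁A, hb₁, hred₁⟩ := exists_unit_redAt_galFun_div hQ hA hτ hn0
    (AlgEquiv.refl : FBar (D.Q * D.R) ≃ₐ[Qb] FBar (D.Q * D.R)) (fun _ => rfl) hf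
  obtain ⟨b₂, hb₂A, hb₂, hred₂⟩ := exists_unit_redAt_galFun_div hQ hA hτ hn0
    (atkinLehner D) (atkinLehner_galFun D τ) hf
  -- the separating element
  obtain ⟨E, hE1, hE2, hE3, hE4⟩ := hsep hQ A hA
  have hE₁ : RedAt A (AlgEquiv.refl : FBar (D.Q * D.R) ≃ₐ[Qb] FBar (D.Q * D.R)) E 1 :=
    ⟨hE1, hE2⟩
  have hE₂ : RedAt A (atkinLehner D) E 0 := ⟨hE3, hE4⟩
  set β₁ := algebraMap (IsLocalRing.ResidueField A) (LaurentSeries (IsLocalRing.ResidueField A))
    (IsLocalRing.residue A ⟨b₁, hb₁A⟩) with hβ₁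
  set β₂ := algebraMap (IsLocalRing.ResidueField A) (LaurentSeries (IsLocalRing.ResidueField A))
    (IsLocalRing.residue A ⟨b₂, hb₂A⟩) with hβ₂
  have hβ₁0 : β₁ ≠ 0 := algebraMap_residue_ne_zero hb₁A hb₁
  have hβ₂0 : β₂ ≠ 0 := algebraMap_residue_ne_zero hb₂A hb₂
  set e : FBar (D.Q * D.R) :=
    algebraMap Qb (FBar (D.Q * D.R)) b₁ * E + algebraMap Qb (FBar (D.Q * D.R)) b₂ * (1 - E)
    with he
  have he₁ : RedAt A (AlgEquiv.refl : FBar (D.Q * D.R) ≃ₐ[Qb] FBar (D.Q * D.R)) e β₁ := by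
    have h := ((RedAt.const (ψ := (AlgEquiv.refl : FBar (D.Q * D.R) ≃ₐ[Qb] FBar (D.Q * D.R)))
      hb₁A).mul hE₁).add ((RedAt.const hb₂A).mul (RedAt.one.sub hE₁))
    rwa [sub_self, mul_zero, add_zero, mul_one] at h
  have he₂ : RedAt A (atkinLehner D) e β₂ := by
    have h := ((RedAt.const (ψ := atkinLehner D) hb₁A).mul hE₂).add
      ((RedAt.const hb₂A).mul (RedAt.one.sub hE₂))
    rwa [sub_zero, mul_zero, zero_add, mul_one] at h
  have he0 : e ≠ 0 := he₁.ne_zero hβ₁0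
  -- the normalised function
  set g : FBar (D.Q * D.R) := galFun (D.Q * D.R) τ f / f / e ^ n with hg
  have hGf0 : galFun (D.Q * D.R) τ f ≠ 0 := by
    rw [galFun_eq_ringAut]
    exact (map_ne_zero_iff _ (arithmeticRingAut _ τ).injective).mpr hf
  have hg0 : g ≠ 0 := div_ne_zero (div_ne_zero hGf0 hf) (pow_ne_zero n he0)
  have hb₁F : algebraMap Qb (FBar (D.Q * D.R)) b₁ ^ n ≠ 0 := by
    refine pow_ne_zero n ((map_ne_zero_iff _ (algebraMap Qb (FBar (D.Q * D.R))).injective).mpr ?_)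
    rintro rfl
    rw [map_zero] at hb₁
    exact zero_ne_one hb₁
  have hb₂F : algebraMap Qb (FBar (D.Q * D.R)) b₂ ^ n ≠ 0 := by
    refine pow_ne_zero n ((map_ne_zero_iff _ (algebraMap Qb (FBar (D.Q * D.R))).injective).mpr ?_)
    rintro rfl
    rw [map_zero] at hb₂
    exact zero_ne_one hb₂
  have hg₁ : RedAt A (AlgEquiv.refl : FBar (D.Q * D.R) ≃ₐ[Qb] FBar (D.Q * D.R)) g 1 := by
    have h := hred₁.mul (((RedAt.const hb₁A).pow n).div (he₁.pow n) (pow_ne_zero n hβ₁0))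
    rw [div_self (pow_ne_zero n hβ₁0), mul_one] at h
    have e' : g = galFun (D.Q * D.R) τ f / f / algebraMap Qb (FBar (D.Q * D.R)) b₁ ^ n *
        (algebraMap Qb (FBar (D.Q * D.R)) b₁ ^ n / e ^ n) := by
      rw [hg]
      field_simp
    rw [e']
    exact h
  have hg₂ : RedAt A (atkinLehner D) g 1 := by
    have h := hred₂.mul (((RedAt.const hb₂A).pow n).div (he₂.pow n) (pow_ne_zero n hβ₂0))
    rw [div_self (pow_ne_zero n hβ₂0), mul_one] at h
    have e' : g = galFun (D.Q * D.R) τ f / f / algebraMap Qb (FBar (D.Q * D.R)) b₂ ^ n *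
        (algebraMap Qb (FBar (D.Q * D.R)) b₂ ^ n / e ^ n) := by
      rw [hg]
      field_simp
    rw [e']
    exact h
  -- divisibility of the divisor
  have hgdiv : ∀ P : Place Qb (FBar (D.Q * D.R)), (n : ℤ) ∣ P.ord g := by
    intro P
    rw [hg, div_eq_mul_inv, div_eq_mul_inv,
      P.ord_mul (mul_ne_zero hGf0 (inv_ne_zero hf)) (inv_ne_zero (pow_ne_zero n he0)),
      P.ord_mul hGf0 (inv_ne_zero hf), P.ord_inv, P.ord_inv, ← zpow_natCast e n, P.ord_zpow]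
    exact dvd_sub (dvd_add (dvd_ord_galFun τ hdiv P) ((dvd_neg).mpr (hdiv P)))
      (Dvd.intro _ rfl) |> fun h => by
        have e' : P.ord (galFun (D.Q * D.R) τ f) + -P.ord f + -((n : ℤ) * P.ord e) =
            P.ord (galFun (D.Q * D.R) τ f) + -P.ord f - (n : ℤ) * P.ord e := by ring
        rw [e']
        exact h
  exact ⟨e, he0, hg0, hgdiv, hg₁, hg₂⟩

/-- the same, with the separating element supplied (`gaussSepAt`). -/
theorem exists_redOne_galFun_div' (D : ALData) [NeZero (D.Q * D.R)] (hQ : D.Q.Prime)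
    (n : ℕ) (hn0 : n ≠ 0) (A : ValuationSubring Qb)
    (hA : A.LiesOverPrime D.Q) (τ : Qb ≃ₐ[ℚ] Qb) (hτ : τ ∈ A.inertiaSubgroupIn ℚ)
    (f : FBar (D.Q * D.R)) (hf : f ≠ 0)
    (hdiv : ∀ P : Place Qb (FBar (D.Q * D.R)), (n : ℤ) ∣ P.ord f) :
    ∃ e : FBar (D.Q * D.R), e ≠ 0 ∧
      galFun (D.Q * D.R) τ f / f / e ^ n ≠ 0 ∧
      (∀ P : Place Qb (FBar (D.Q * D.R)),
        (n : ℤ) ∣ P.ord (galFun (D.Q * D.R) τ f / f / e ^ n)) ∧
      RedAt A (AlgEquiv.refl : FBar (D.Q * D.R) ≃ₐ[Qb] FBar (D.Q * D.R))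
        (galFun (D.Q * D.R) τ f / f / e ^ n) 1 ∧
      RedAt A (atkinLehner D) (galFun (D.Q * D.R) τ f / f / e ^ n) 1 :=
  exists_redOne_galFun_div D hQ (gaussSepAt D) n hn0 A hA τ hτ f hf hdiv

end Fermat.Agent.BadRed
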