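import Fermat.Agent.Lib.BadRed.Bridge.P1
import Fermat.Agent.F3.Galois.TorsionReduce

set_option autoImplicit false
set_option linter.style.haveILetI false
set_option linter.unusedSectionVars false

/-!
# Cluster T / S35: the quartic identity on divisor classes  (statement: helper36)

`frobQuartic_class`: class form of `frobQuartic_fun` (`Bridge/P1.lean`).  Let `y ∈ J₀(M)[n]`,
`q ∤ n`, and suppose that every Kummer generator `f` of `y` (`n D = div f`, `y = [D]`)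
satisfies the two norm relations in expansion form.  Then for every Frobenius element `φ`
at a place `A | q`
    `φ⁴ y - (q² + 1) φ² y + q² y = 0`.

Proof: `exists_div_of_zsmul_eq_zero` (helper42, `F3/Galois/TorsionReduce.lean`), then
`frobQuartic_fun`, then `mk_sub_add_nsmul_eq_zero_of_pow` with `a = φ⁴ f`,
`b = (φ² f)^(q² + 1)`, `c = f`, `ℓ = q²`.  Model: `Bridge/T1ofPow.lean`.

`frobQuartic_class_of_fun` is the general form (hypothesis: the function-level quartic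
identity itself); `frobQuartic_class` is derived from it with `frobQuartic_fun`.

Proof: helper16.
-/

noncomputable section

namespace Fermat.Agent.BadRed

open ModularCurve AlgebraicCurve Fermat.Agent.F3 Fermat.Agent.F3G Fermat.Agent.GaussInt
  Fermat.Agent.Kronecker

local notation "Qb" => AlgebraicClosure ℚ

variable {M : ℕ} [NeZero M]

/-- **class form of (P1) + (P2), general form.**  Instead of the toric key at level `M`
(`hww`, `hkey`, `hwG` of `frobQuartic_class`) the hypothesis is the function-level quartic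
identity `hfun` itself, so that the descent from an auxiliary level (`q = 2, 3`,
`Bridge/AuxNew.lean`) feeds the same class-level theorem. -/
theorem frobQuartic_class_of_fun (w : FBar M ≃ₐ[Qb] FBar M) {q : ℕ} [NeZero q]
    {n : ℕ} (hqn : ¬ q ∣ n)
    {φ : Qb ≃ₐ[ℚ] Qb}
    (ζ : Qbˣ)
    (hfun : ∀ (f u₁ u₂ : FBar M) (c₁ c₂ : Qb), f ≠ 0 →
      (∀ P : Place Qb (FBar M), (n : ℤ) ∣ P.ord f) →
      (qExpand Qb q ((algebraMap Qb (FBar M) c₁ * u₁ ^ n : FBar M) : LaurentSeries Qb) =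
          qExpand Qb q (f : LaurentSeries Qb) *
            ∏ i ∈ Finset.range q, scaleL (ζ ^ i) ((w f : FBar M) : LaurentSeries Qb)) →
      (qExpand Qb q ((algebraMap Qb (FBar M) c₂ * u₂ ^ n : FBar M) : LaurentSeries Qb) =
          qExpand Qb q ((w f : FBar M) : LaurentSeries Qb) *
            ∏ i ∈ Finset.range q, scaleL (ζ ^ i) (f : LaurentSeries Qb)) →
      ∃ U : FBar M,
        U ^ n * galFun M φ (galFun M φ f) ^ (q ^ 2 + 1) =
          galFun M φ (galFun M φ (galFun M φ (galFun M φ f))) * f ^ (q ^ 2))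
    (y : JZero M) (hy : n • y = 0)
    (hnorm : ∀ (D : Divisor.degZero (K := Qb) (F := FBar M)) (f : FBar M), f ≠ 0 →
      (∀ v : Place Qb (FBar M), (n : ℤ) * (D : Divisor Qb (FBar M)) v = v.ord f) →
      y = Pic0.mk D →
      ∃ (u₁ u₂ : FBar M) (c₁ c₂ : Qb),
        (qExpand Qb q ((algebraMap Qb (FBar M) c₁ * u₁ ^ n : FBar M) : LaurentSeries Qb) =
            qExpand Qb q (f : LaurentSeries Qb) *
              ∏ i ∈ Finset.range q, scaleL (ζ ^ i) ((w f : FBar M) : LaurentSeries Qb)) ∧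
        (qExpand Qb q ((algebraMap Qb (FBar M) c₂ * u₂ ^ n : FBar M) : LaurentSeries Qb) =
            qExpand Qb q ((w f : FBar M) : LaurentSeries Qb) *
              ∏ i ∈ Finset.range q, scaleL (ζ ^ i) (f : LaurentSeries Qb))) :
    φ • φ • φ • φ • y - ((q ^ 2 + 1 : ℕ) : ℤ) • (φ • φ • y) + ((q ^ 2 : ℕ) : ℤ) • y = 0 := by
  have hn : n ≠ 0 := by
    rintro rfl
    exact hqn (dvd_zero q)
  have hy' : (n : ℤ) • y = 0 := by rwa [natCast_zsmul]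
  obtain ⟨D, f, hf, rfl, hD⟩ := exists_div_of_zsmul_eq_zero (n : ℤ) y hy'
  obtain ⟨u₁, u₂, c₁, c₂, H1, H2⟩ := hnorm D f hf hD rfl
  have hdiv : ∀ P : Place Qb (FBar M), (n : ℤ) ∣ P.ord f := fun P => ⟨_, (hD P).symm⟩
  obtain ⟨U, hU⟩ := hfun f u₁ u₂ c₁ c₂ hf hdiv H1 H2
  obtain ⟨g, hg⟩ : ∃ g : SemilinearAut Qb (FBar M),
      g = arithmeticGalois (modularFunctionFieldFull M) φ := ⟨_, rfl⟩
  have hgal : ∀ z : FBar M, galFun M φ z = g • z := fun z => by rw [hg]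
  simp only [hgal] at hU
  have hsm : ∀ E : Divisor.degZero (K := Qb) (F := FBar M),
      φ • Pic0.mk E = Pic0.mk (SemilinearAut.degZeroSMulHom g E) := fun E => by
    rw [hg]
    exact SemilinearAut.pic0_smul_mk _ E
  have hne : ∀ z : FBar M, z ≠ 0 → g • z ≠ 0 := fun z hz => by simpa using hz
  have hord : ∀ (E : Divisor.degZero (K := Qb) (F := FBar M)) (z : FBar M),
      (∀ v, (n : ℤ) * (E : Divisor Qb (FBar M)) v = v.ord z) →
      ∀ v, (n : ℤ) * (SemilinearAut.degZeroSMulHom g E : Divisor Qb (FBar M)) v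
        = v.ord (g • z) :=
    fun E z hE v => mul_smul_divisor_apply_eq_ord g (n : ℤ) hE v
  obtain ⟨D₁, hD₁def⟩ : ∃ D₁, D₁ = SemilinearAut.degZeroSMulHom g D := ⟨_, rfl⟩
  obtain ⟨D₂, hD₂def⟩ : ∃ D₂, D₂ = SemilinearAut.degZeroSMulHom g D₁ := ⟨_, rfl⟩
  obtain ⟨D₃, hD₃def⟩ : ∃ D₃, D₃ = SemilinearAut.degZeroSMulHom g D₂ := ⟨_, rfl⟩
  obtain ⟨D₄, hD₄def⟩ : ∃ D₄, D₄ = SemilinearAut.degZeroSMulHom g D₃ := ⟨_, rfl⟩
  obtain ⟨f₁, hf₁def⟩ : ∃ f₁ : FBar M, f₁ = g • f := ⟨_, rfl⟩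
  obtain ⟨f₂, hf₂def⟩ : ∃ f₂ : FBar M, f₂ = g • f₁ := ⟨_, rfl⟩
  obtain ⟨f₃, hf₃def⟩ : ∃ f₃ : FBar M, f₃ = g • f₂ := ⟨_, rfl⟩
  obtain ⟨f₄, hf₄def⟩ : ∃ f₄ : FBar M, f₄ = g • f₃ := ⟨_, rfl⟩
  rw [← hf₁def, ← hf₂def, ← hf₃def, ← hf₄def] at hU
  have hf₁ : f₁ ≠ 0 := hf₁def ▸ hne f hf
  have hf₂ : f₂ ≠ 0 := hf₂def ▸ hne f₁ hf₁
  have hf₃ : f₃ ≠ 0 := hf₃def ▸ hne f₂ hf₂
  have hf₄ : f₄ ≠ 0 := hf₄def ▸ hne f₃ hf₃
  have hD₁ : ∀ v, (n : ℤ) * (D₁ : Divisor Qb (FBar M)) v = v.ord f₁ := by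
    rw [hD₁def, hf₁def]
    exact hord D f hD
  have hD₂ : ∀ v, (n : ℤ) * (D₂ : Divisor Qb (FBar M)) v = v.ord f₂ := by
    rw [hD₂def, hf₂def]
    exact hord D₁ f₁ hD₁
  have hD₃ : ∀ v, (n : ℤ) * (D₃ : Divisor Qb (FBar M)) v = v.ord f₃ := by
    rw [hD₃def, hf₃def]
    exact hord D₂ f₂ hD₂
  have hD₄ : ∀ v, (n : ℤ) * (D₄ : Divisor Qb (FBar M)) v = v.ord f₄ := by
    rw [hD₄def, hf₄def]
    exact hord D₃ f₃ hD₃
  have e1 : φ • Pic0.mk D = Pic0.mk D₁ := by rw [hD₁def]; exact hsm D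
  have e2 : φ • Pic0.mk D₁ = Pic0.mk D₂ := by rw [hD₂def]; exact hsm D₁
  have e3 : φ • Pic0.mk D₂ = Pic0.mk D₃ := by rw [hD₃def]; exact hsm D₂
  have e4 : φ • Pic0.mk D₃ = Pic0.mk D₄ := by rw [hD₄def]; exact hsm D₃
  rw [e1, e2, e3, e4]
  -- `E = (q² + 1) D₂` with function `(φ² f)^(q² + 1)`
  have hE : ∀ v, (n : ℤ) * (((q ^ 2 + 1 : ℕ) • D₂ : Divisor.degZero (K := Qb) (F := FBar M)) :
      Divisor Qb (FBar M)) v = v.ord (f₂ ^ (q ^ 2 + 1)) := by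
    intro v
    rw [AddSubgroup.coe_nsmul, Finsupp.smul_apply, nsmul_eq_mul,
      ← zpow_natCast f₂ (q ^ 2 + 1), Place.ord_zpow, ← hD₂ v]
    ring
  have key := mk_sub_add_nsmul_eq_zero_of_pow n hn (q ^ 2) D₄ ((q ^ 2 + 1 : ℕ) • D₂) D
    hf₄ (pow_ne_zero _ hf₂) hf hD₄ hE hD (u := U) hU
  have e5 : Pic0.mk ((q ^ 2 + 1 : ℕ) • D₂) = ((q ^ 2 + 1 : ℕ) : ℤ) • Pic0.mk D₂ := by
    have : Pic0.mk ((q ^ 2 + 1 : ℕ) • D₂) = (q ^ 2 + 1 : ℕ) • Pic0.mk D₂ :=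
      map_nsmul (QuotientAddGroup.mk' _) (q ^ 2 + 1) D₂
    rw [this]
    exact (natCast_zsmul (Pic0.mk D₂) (q ^ 2 + 1)).symm
  rw [e5, ← natCast_zsmul (Pic0.mk D) (q ^ 2)] at key
  exact key

/-- **class form of (P1) + (P2).** -/
theorem frobQuartic_class (w : FBar M ≃ₐ[Qb] FBar M) {q : ℕ} [NeZero q] (hq : q.Prime)
    (hww : ∀ x : FBar M, w (w x) = x) (hkey : FrobToricKeyFor M w q)
    {n : ℕ} (hqn : ¬ q ∣ n)
    {A : ValuationSubring Qb} (hA : A.LiesOverPrime q)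
    {φ : Qb ≃ₐ[ℚ] Qb} (hφ : A.IsFrobeniusAt φ q)
    (hwG : ∀ z : FBar M, w (galFun M φ z) = galFun M φ (w z))
    (ζ : Qbˣ) (hζ : IsPrimitiveRoot ζ q)
    (y : JZero M) (hy : n • y = 0)
    (hnorm : ∀ (D : Divisor.degZero (K := Qb) (F := FBar M)) (f : FBar M), f ≠ 0 →
      (∀ v : Place Qb (FBar M), (n : ℤ) * (D : Divisor Qb (FBar M)) v = v.ord f) →
      y = Pic0.mk D →
      ∃ (u₁ u₂ : FBar M) (c₁ c₂ : Qb),
        (qExpand Qb q ((algebraMap Qb (FBar M) c₁ * u₁ ^ n : FBar M) : LaurentSeries Qb) =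
            qExpand Qb q (f : LaurentSeries Qb) *
              ∏ i ∈ Finset.range q, scaleL (ζ ^ i) ((w f : FBar M) : LaurentSeries Qb)) ∧
        (qExpand Qb q ((algebraMap Qb (FBar M) c₂ * u₂ ^ n : FBar M) : LaurentSeries Qb) =
            qExpand Qb q ((w f : FBar M) : LaurentSeries Qb) *
              ∏ i ∈ Finset.range q, scaleL (ζ ^ i) (f : LaurentSeries Qb))) :
    φ • φ • φ • φ • y - ((q ^ 2 + 1 : ℕ) : ℤ) • (φ • φ • y) + ((q ^ 2 : ℕ) : ℤ) • y = 0 :=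
  frobQuartic_class_of_fun w hqn ζ
    (fun _ _ _ _ _ hf hdiv H1 H2 =>
      frobQuartic_fun w hq hww hkey hqn hA hφ hwG ζ hζ hf hdiv H1 H2)
    y hy hnorm

end Fermat.Agent.BadRed
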