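import Fermat.Agent.Lib.BadRed.Bridge.E1
import Fermat.Agent.Lib.BadRed.Bridge.Assembly
import Fermat.Agent.Lib.BadRed.Nodal.Gluing.Main
import Fermat.Agent.Lib.BadRed.Nodal.Gluing.Inertia

set_option autoImplicit false

/-!
# Cluster T / S35: the FROBENIUS targets in function form  (helper36)

* `FrobToricKeyAt D` : function form of (P2) "`φ²` acts as `q²` on the toric part":
  for `N = Q R`, `Q = q` prime, `w = atkinLehner D`, `φ` a Frobenius element at a place `A | q` and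
  `g` with `n ∣ div g` whose reductions for the two Gauss valuations `v_∞`, `v_0 = v_∞ ∘ w` are
  constants times `n`-th powers of residues of units:  `φ² g = u ^ n * g ^ (q²)`.
* `ModularNodal.FrobSq M` : the squares of the Frobenius elements at `A` are Frobenius-like
  (`Gluing.IsFrobLike`, helper76) for the modular nodal package with `Q = q²`.
* `frobToricKeyAt_of_modularNodal` : the bridge (proved by helper76).
-/

noncomputable section

namespace Fermat.Agent.BadRed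

open ModularCurve AlgebraicCurve Fermat.Agent.F3 Fermat.Agent.F3G Fermat.Agent.GaussInt
  Fermat.Agent.AtkinLehner Fermat.Agent.Deuring

local notation "Qb" => AlgebraicClosure ℚ

/-- **function form of (P2)**. -/
def FrobToricKeyAt (D : ALData) : Prop :=
  D.Q.Prime → ∀ n : ℕ, ¬ D.Q ∣ n →
    ∀ A : ValuationSubring Qb, A.LiesOverPrime D.Q →
      ∀ φ : Qb ≃ₐ[ℚ] Qb, A.IsFrobeniusAt φ D.Q →
        ∀ g : FBar (D.Q * D.R), g ≠ 0 →
          (∀ P : Place Qb (FBar (D.Q * D.R)), (n : ℤ) ∣ P.ord g) →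
          ∀ (K₁ K₂ : Qb) (e₁ e₂ : FBar (D.Q * D.R))
            (r₁ r₂ : LaurentSeries (IsLocalRing.ResidueField A)),
            K₁ ≠ 0 → K₂ ≠ 0 → r₁ ≠ 0 → r₂ ≠ 0 →
            RedAt A (AlgEquiv.refl : FBar (D.Q * D.R) ≃ₐ[Qb] FBar (D.Q * D.R)) e₁ r₁ →
            RedAt A (AlgEquiv.refl : FBar (D.Q * D.R) ≃ₐ[Qb] FBar (D.Q * D.R))
              (algebraMap Qb (FBar (D.Q * D.R)) K₁ * g) (r₁ ^ n) →
            RedAt A (atkinLehner D) e₂ r₂ →
            RedAt A (atkinLehner D) (algebraMap Qb (FBar (D.Q * D.R)) K₂ * g) (r₂ ^ n) →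
              ∃ u : FBar (D.Q * D.R),
                u ^ n * g ^ (D.Q ^ 2) = galFun (D.Q * D.R) φ (galFun (D.Q * D.R) φ g)

/-- the squares of the Frobenius elements at `A` are Frobenius-like for the modular nodal
package, with `Q = q²`. -/
def ModularNodal.FrobSq {D : ALData} {A : ValuationSubring Qb} (M : ModularNodal D A) : Prop :=
  ∀ φ : Qb ≃ₐ[ℚ] Qb, A.IsFrobeniusAt φ D.Q →
    ∃ (τ₁ : M.Fk₁ →+* M.Fk₁) (τ₂ : M.Fk₂ →+* M.Fk₂),
      Gluing.IsFrobLike M.N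
        (arithmeticGalois (modularFunctionFieldFull (D.Q * D.R)) (φ * φ)) (D.Q ^ 2) τ₁ τ₂

section Aux

variable {D : ALData} {A : ValuationSubring Qb} (M : ModularNodal D A)

/-- first valuation: membership from `RedAt`. -/
theorem ModularNodal.mem₁_of_redAt {x : FBar (D.Q * D.R)}
    {r : LaurentSeries (IsLocalRing.ResidueField A)}
    (h : RedAt A (AlgEquiv.refl : FBar (D.Q * D.R) ≃ₐ[Qb] FBar (D.Q * D.R)) x r) :
    x ∈ M.N.S₁.Ov :=
  (M.mem₁_iff x).mpr h.1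

theorem ModularNodal.red₁_of_redAt_one {x : FBar (D.Q * D.R)}
    (h : RedAt A (AlgEquiv.refl : FBar (D.Q * D.R) ≃ₐ[Qb] FBar (D.Q * D.R)) x 1) :
    M.N.S₁.red x = 1 :=
  M.red₁_eq_one x (M.mem₁_of_redAt h) h.2

theorem ModularNodal.mem₂_of_redAt {x : FBar (D.Q * D.R)}
    {r : LaurentSeries (IsLocalRing.ResidueField A)}
    (h : RedAt A (atkinLehner D) x r) : x ∈ M.N.S₂.Ov :=
  (M.mem₂_iff x).mpr ((M.mem₁_iff _).mpr h.1)

theorem ModularNodal.red₂_of_redAt_one {x : FBar (D.Q * D.R)}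
    (h : RedAt A (atkinLehner D) x 1) : M.N.S₂.red x = 1 :=
  M.red₂_eq_one x (M.mem₂_of_redAt h) (M.red₁_eq_one _ ((M.mem₁_iff _).mpr h.1) h.2)

/-- first valuation: `red (K g) = (red e) ^ n` and `red e ≠ 0`. -/
theorem ModularNodal.red₁_pow_of_redAt {n : ℕ} {x e : FBar (D.Q * D.R)}
    {r : LaurentSeries (IsLocalRing.ResidueField A)} (hr : r ≠ 0)
    (he : RedAt A (AlgEquiv.refl : FBar (D.Q * D.R) ≃ₐ[Qb] FBar (D.Q * D.R)) e r)
    (hx : RedAt A (AlgEquiv.refl : FBar (D.Q * D.R) ≃ₐ[Qb] FBar (D.Q * D.R)) x (r ^ n)) :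
    M.N.S₁.red e ≠ 0 ∧ M.N.S₁.red x = M.N.S₁.red e ^ n := by
  have he0 : e ≠ 0 := he.ne_zero hr
  have hemem := M.mem₁_of_redAt he
  have heinv := M.mem₁_of_redAt (he.inv hr)
  have hy : RedAt A (AlgEquiv.refl : FBar (D.Q * D.R) ≃ₐ[Qb] FBar (D.Q * D.R)) (x / e ^ n) 1 := by
    have := hx.div (he.pow n) (pow_ne_zero n hr)
    rwa [div_self (pow_ne_zero n hr)] at this
  have hy1 := M.red₁_of_redAt_one hy
  have hymem := M.mem₁_of_redAt hy
  refine ⟨M.N.S₁.red_ne_zero hemem heinv he0, ?_⟩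
  have e1 : x = (x / e ^ n) * e ^ n := by
    rw [div_mul_cancel₀ _ (pow_ne_zero n he0)]
  rw [e1, M.N.S₁.red_mul hymem (pow_mem hemem n), hy1, one_mul, M.N.S₁.red_pow hemem]

theorem ModularNodal.red₂_pow_of_redAt {n : ℕ} {x e : FBar (D.Q * D.R)}
    {r : LaurentSeries (IsLocalRing.ResidueField A)} (hr : r ≠ 0)
    (he : RedAt A (atkinLehner D) e r) (hx : RedAt A (atkinLehner D) x (r ^ n)) :
    M.N.S₂.red e ≠ 0 ∧ M.N.S₂.red x = M.N.S₂.red e ^ n := by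
  have he0 : e ≠ 0 := he.ne_zero hr
  have hemem := M.mem₂_of_redAt he
  have heinv := M.mem₂_of_redAt (he.inv hr)
  have hy : RedAt A (atkinLehner D) (x / e ^ n) 1 := by
    have := hx.div (he.pow n) (pow_ne_zero n hr)
    rwa [div_self (pow_ne_zero n hr)] at this
  have hy1 := M.red₂_of_redAt_one hy
  have hymem := M.mem₂_of_redAt hy
  refine ⟨M.N.S₂.red_ne_zero hemem heinv he0, ?_⟩
  have e1 : x = (x / e ^ n) * e ^ n := by
    rw [div_mul_cancel₀ _ (pow_ne_zero n he0)]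
  rw [e1, M.N.S₂.red_mul hymem (pow_mem hemem n), hy1, one_mul, M.N.S₂.red_pow hemem]

end Aux

/-- **Bridge**: the modular nodal package with Frobenius-like `φ²` and the nodal key lemma give
`FrobToricKeyAt D`. -/
theorem frobToricKeyAt_of_modularNodal (D : ALData)
    (h : D.Q.Prime → ∀ A : ValuationSubring Qb, A.LiesOverPrime D.Q →
      Infinite (IsLocalRing.ResidueField A) ∧
      ∃ M : ModularNodal D A, Gluing.KeyConcl M.N ∧ M.FrobSq) :
    FrobToricKeyAt D := by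
  intro hQ n hn A hA φ hφ g hg0 hdiv K₁ K₂ e₁ e₂ r₁ r₂ hK₁ hK₂ hr₁ hr₂ he₁ hg₁ he₂ hg₂
  obtain ⟨hinf, M, hKey, hFrob⟩ := h hQ A hA
  obtain ⟨τ₁, τ₂, ht⟩ := hFrob φ hφ
  have hnn : n ≠ 0 := by
    rintro rfl
    exact hn (dvd_zero _)
  have hn0 : (n : Qb) ≠ 0 := by exact_mod_cast hnn
  have hnA : ((n : Qb))⁻¹ ∈ M.N.S₁.A := by
    rw [M.A_eq]
    exact natCast_inv_mem_of_not_dvd' A hQ hA hn
  obtain ⟨hh₁, hred₁⟩ := M.red₁_pow_of_redAt hr₁ he₁ hg₁
  obtain ⟨hh₂, hred₂⟩ := M.red₂_pow_of_redAt hr₂ he₂ hg₂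
  obtain ⟨c₀, hc₀⟩ := IsAlgClosed.exists_pow_nat_eq (K₁⁻¹ / K₂⁻¹) (Nat.pos_of_ne_zero hnn)
  have hc₀0 : c₀ ≠ 0 := by
    rintro rfl
    rw [zero_pow hnn] at hc₀
    exact div_ne_zero (inv_ne_zero hK₁) (inv_ne_zero hK₂) hc₀.symm
  have e₁' : g / algebraMap Qb (FBar (D.Q * D.R)) K₁⁻¹ =
      algebraMap Qb (FBar (D.Q * D.R)) K₁ * g := by
    rw [map_inv₀, div_inv_eq_mul]
    exact mul_comm _ _
  have e₂' : g / algebraMap Qb (FBar (D.Q * D.R)) K₂⁻¹ =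
      algebraMap Qb (FBar (D.Q * D.R)) K₂ * g := by
    rw [map_inv₀, div_inv_eq_mul]
    exact mul_comm _ _
  let d : Gluing.GData M.N n :=
    ⟨Gluing.kummerDiv M.N.S₁.hF g n, g, K₁⁻¹, K₂⁻¹, c₀, M.N.S₁.red e₁, M.N.S₂.red e₂,
      Gluing.kummerDiv_degree M.N.S₁.hF hnn hdiv, hg0, Gluing.kummerDiv_spec M.N.S₁.hF hdiv,
      inv_ne_zero hK₁, inv_ne_zero hK₂, hc₀0, hh₁, hh₂, by rw [e₁']; exact hred₁,
      by rw [e₂']; exact hred₂, hc₀⟩
  obtain ⟨u, c, hc, hu⟩ := Gluing.exists_pow_mul_eq_smul hKey M.genusRel hn0 hnA ht d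
  obtain ⟨b, hb⟩ := IsAlgClosed.exists_pow_nat_eq (c⁻¹) (Nat.pos_of_ne_zero hnn)
  refine ⟨algebraMap Qb (FBar (D.Q * D.R)) b * u, ?_⟩
  have hcF : algebraMap Qb (FBar (D.Q * D.R)) c ≠ 0 := by simpa using hc
  have hu' : u ^ n * g ^ (D.Q ^ 2) = algebraMap Qb (FBar (D.Q * D.R)) c *
      (arithmeticGalois (modularFunctionFieldFull (D.Q * D.R)) (φ * φ) • g) := hu
  have hsmul : arithmeticGalois (modularFunctionFieldFull (D.Q * D.R)) (φ * φ) • g =
      galFun (D.Q * D.R) φ (galFun (D.Q * D.R) φ g) := by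
    rw [map_mul, mul_smul]
  rw [mul_pow, ← map_pow, hb, mul_assoc, hu', ← mul_assoc, ← map_mul, inv_mul_cancel₀ hc, map_one,
    one_mul, hsmul]

end Fermat.Agent.BadRed
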