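import Fermat.Agent.F3.I2.Deg.KappaPush
import Fermat.Agent.F3.Galois.TorsionReduce
import Fermat.Agent.Lib.RR.OfModularBar
import Fermat.Agent.Lib.RR.Basic

set_option autoImplicit false
set_option linter.style.haveILetI false
set_option linter.unusedSectionVars false

/-!
# Cluster T / S35: classes killed by `α_*` have Kummer generators with norm `c · uⁿ`
(statement: helper36; proof: helper17)

`exists_norm_eq_of_pushAlpha_eq_zero`: if `n E = div f` on `X₀(N₀ q)` and `α_* [E] = 0` in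
`J₀(N₀)`, then `Norm_α f = c · uⁿ` with `u ∈ F_{N₀}`, `c ∈ ℚ̄ˣ`.

Proof: `pushAlpha_mk`, the class of `α_* E` is `0`, so `α_* E = div u`;
`IsRootDiv.push` (helper43, `F3/I2/Deg/Push.lean`) gives `div (Norm f) = n α_* E = div (uⁿ)`;
a function without zeros and poles is constant (`RR.mem_riemannRochSpace_zero_iff`).
-/

noncomputable section

namespace Fermat.Agent.BadRed

open ModularCurve AlgebraicCurve Fermat.Agent.F3 Fermat.Agent.F3G Fermat.Agent.F3I2
  Fermat.Agent.F3Deg

local notation "Qb" => AlgebraicClosure ℚ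

/-- a function of `F_M` over `ℚ̄` without zeros and poles is a nonzero constant. -/
theorem normRel_const_of_ord_eq_zero (M : ℕ) [NeZero M] {g : FBar M} (hg : g ≠ 0)
    (h0 : ∀ v : Place Qb (FBar M), v.ord g = 0) :
    ∃ c : Qb, c ≠ 0 ∧ g = algebraMap Qb (FBar M) c := by
  have h := Fermat.Agent.RRMod.isRRField_bar M
  have hmem : g ∈ riemannRochSpace (0 : Divisor Qb (FBar M)) := by
    rw [mem_riemannRochSpace_iff]
    intro v
    right
    simp [h0 v]
  obtain ⟨c, hc⟩ := (Fermat.Agent.RR.mem_riemannRochSpace_zero_iff h g).mp hmem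
  refine ⟨c, ?_, hc.symm⟩
  rintro rfl
  rw [map_zero] at hc
  exact hg hc.symm

/-- **norm relation.** -/
theorem exists_norm_eq_of_pushAlpha_eq_zero {N₀ q : ℕ} [NeZero N₀] [NeZero q] {n : ℕ}
    (hn : n ≠ 0) {f : FBar (N₀ * q)}
    {E : Divisor.degZero (K := Qb) (F := FBar (N₀ * q))} (hE : IsRootDiv n f E)
    (h0 : pushAlpha N₀ q (Pic0.mk E) = 0) :
    ∃ (u : FBar N₀) (c : Qb), c ≠ 0 ∧
      normAlong (heckeAlphaBar Qb N₀ q) f = algebraMap Qb (FBar N₀) c * u ^ n := by
  set hH := Fermat.Agent.HeckeInputs.hi_heckeInputsAlong_Qbar N₀ q with hHdef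
  -- the class of `α_* E` vanishes, so `α_* E = div u`
  rw [pushAlpha_mk] at h0
  have hprin : (pushDegZero (heckeAlphaBar Qb N₀ q) hH.fst E : Divisor Qb (FBar N₀)) ∈
      Divisor.principal (K := Qb) (F := FBar N₀) := by
    have h1 := (QuotientAddGroup.eq_zero_iff _).mp h0
    exact h1
  obtain ⟨u, hu0, hu⟩ := hprin
  -- `div (Norm f) = n α_* E`
  have hpush := IsRootDiv.push (heckeAlphaBar Qb N₀ q) hH.fst hH.snd.snd.snd.fst
    hH.snd.snd.snd.snd.2 hE
  obtain ⟨hNf0, hNf⟩ := hpush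
  -- the quotient has no zeros and poles
  have hun0 : u ^ n ≠ 0 := pow_ne_zero n hu0
  set g : FBar N₀ := normAlong (heckeAlphaBar Qb N₀ q) f / u ^ n with hg
  have hg0 : g ≠ 0 := div_ne_zero hNf0 hun0
  have hord : ∀ v : Place Qb (FBar N₀), v.ord g = 0 := by
    intro v
    have e1 : v.ord (normAlong (heckeAlphaBar Qb N₀ q) f) = v.ord g + v.ord (u ^ n) := by
      rw [← v.ord_mul hg0 hun0, hg, div_mul_cancel₀ _ hun0]
    have e2 : v.ord (u ^ n) = (n : ℤ) * v.ord u := by
      rw [← zpow_natCast, Place.ord_zpow]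
    have e3 := hNf v
    rw [hu v] at e3
    linarith
  obtain ⟨c, hc0, hc⟩ := normRel_const_of_ord_eq_zero N₀ hg0 hord
  refine ⟨u, c, hc0, ?_⟩
  rw [← hc, hg, div_mul_cancel₀ _ hun0]

end Fermat.Agent.BadRed
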