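import Fermat.Agent.Lib.BadRed.Bridge.NormAt
import Fermat.Agent.Lib.BadRed.Bridge.NormRel
import Fermat.Agent.F3.I2.Deg.ALPushAt

set_option autoImplicit false
set_option linter.style.haveILetI false
set_option linter.unusedSectionVars false

/-!
# Cluster T / S35: the two norm relations for a `q`-new class  (statement: helper36)

`exists_norm_expansions_of_new` (**R3**): let `y ∈ J₀(N₀ q)` with `α_* y = 0` and
`α_* (w_* y) = 0` (`w = w_q`).  Then every Kummer generator `f` of `y` (`n E = div f`,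
`y = [E]`) satisfies the two norm relations of `frobQuartic_class_of_fun`
(`Bridge/FrobClass.lean`) in expansion form:

    `c₁ u₁ⁿ (q^q) = f(q^q) · ∏_{b<q} (w f)(ζ^b q)`,   `c₂ u₂ⁿ (q^q) = (w f)(q^q) · ∏_{b<q} f(ζ^b q)`.

Proof: (R2) `exists_norm_eq_of_pushAlpha_eq_zero` for `(f, E)` and, via
`F3DegW.isRootDiv_pushWAt`, for `(w f, E')`; `u_i := heckeAlphaBar (the R2 element)`
(`coe_heckeAlphaBar`: same expansion); the norm expansion `hζ` (from (R1) `norm_expansion_wAt`)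
at `x = f` and at `x = w f` (with `wAt_wAt`).   Proof: helper16.
-/

noncomputable section

namespace Fermat.Agent.BadRed

open ModularCurve AlgebraicCurve Fermat.Agent.F3 Fermat.Agent.F3G Fermat.Agent.GaussInt
  Fermat.Agent.AtkinLehner Fermat.Agent.Kronecker Fermat.Agent.F3I2 Fermat.Agent.F3Deg
  Fermat.Agent.F3DegW

local notation "Qb" => AlgebraicClosure ℚ

/-- **(R3)** the two norm relations for the Kummer generators of a `q`-new class. -/
theorem exists_norm_expansions_of_new {N₀ q : ℕ} [NeZero N₀] [NeZero q]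
    (D : ALData) (hM : N₀ * q = D.Q * D.R) (ζ : Qbˣ)
    (hζ : ∀ x : FBar (N₀ * q),
      qExpand Qb q ((normAlong (heckeAlphaBar Qb N₀ q) x : FBar N₀) : LaurentSeries Qb) =
        qExpand Qb q (x : LaurentSeries Qb) *
          ∏ i ∈ Finset.range q,
            scaleL (ζ ^ i) ((wAt D hM x : FBar (N₀ * q)) : LaurentSeries Qb))
    {n : ℕ} (hn : n ≠ 0) (y : JZero (N₀ * q))
    (h1 : pushAlpha N₀ q y = 0) (h2 : pushAlpha N₀ q (pushWAt D hM y) = 0)
    (E : Divisor.degZero (K := Qb) (F := FBar (N₀ * q))) (f : FBar (N₀ * q)) (hf : f ≠ 0)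
    (hE : ∀ v : Place Qb (FBar (N₀ * q)),
      (n : ℤ) * (E : Divisor Qb (FBar (N₀ * q))) v = v.ord f)
    (hy : y = Pic0.mk E) :
    ∃ (u₁ u₂ : FBar (N₀ * q)) (c₁ c₂ : Qb),
      (qExpand Qb q ((algebraMap Qb (FBar (N₀ * q)) c₁ * u₁ ^ n : FBar (N₀ * q)) :
            LaurentSeries Qb) =
          qExpand Qb q (f : LaurentSeries Qb) *
            ∏ i ∈ Finset.range q,
              scaleL (ζ ^ i) ((wAt D hM f : FBar (N₀ * q)) : LaurentSeries Qb)) ∧
      (qExpand Qb q ((algebraMap Qb (FBar (N₀ * q)) c₂ * u₂ ^ n : FBar (N₀ * q)) :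
            LaurentSeries Qb) =
          qExpand Qb q ((wAt D hM f : FBar (N₀ * q)) : LaurentSeries Qb) *
            ∏ i ∈ Finset.range q, scaleL (ζ ^ i) (f : LaurentSeries Qb)) := by
  subst hy
  have hR : IsRootDiv n f E := ⟨hf, hE⟩
  obtain ⟨u, c, -, hu⟩ := exists_norm_eq_of_pushAlpha_eq_zero hn hR h1
  obtain ⟨E', hE', hR'⟩ := isRootDiv_pushWAt D hM hR
  rw [hE'] at h2
  obtain ⟨u', c', -, hu'⟩ := exists_norm_eq_of_pushAlpha_eq_zero hn hR' h2
  have key : ∀ (v : FBar N₀) (d : Qb),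
      ((algebraMap Qb (FBar (N₀ * q)) d * (heckeAlphaBar Qb N₀ q v) ^ n : FBar (N₀ * q)) :
        LaurentSeries Qb) = ((algebraMap Qb (FBar N₀) d * v ^ n : FBar N₀) : LaurentSeries Qb) := by
    intro v d
    have h : (algebraMap Qb (FBar (N₀ * q)) d * (heckeAlphaBar Qb N₀ q v) ^ n : FBar (N₀ * q)) =
        heckeAlphaBar Qb N₀ q (algebraMap Qb (FBar N₀) d * v ^ n) := by
      rw [map_mul, map_pow, AlgHom.commutes]
    rw [h, coe_heckeAlphaBar]
  refine ⟨heckeAlphaBar Qb N₀ q u, heckeAlphaBar Qb N₀ q u', c, c', ?_, ?_⟩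
  · rw [key, ← hu]
    exact hζ f
  · rw [key, ← hu']
    have h := hζ (wAt D hM f)
    rwa [wAt_wAt] at h

end Fermat.Agent.BadRed
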