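import Fermat.Agent.Lib.BadRed.Bridge.NewNorm
import Fermat.Agent.Lib.BadRed.Bridge.FrobClass
import Fermat.Agent.Lib.BadRed.Bridge.AuxNew
import Fermat.Agent.Lib.BadRed.Bridge.AuxLevel

set_option autoImplicit false
set_option linter.style.haveILetI false
set_option linter.unusedSectionVars false

/-!
# Cluster T / S35: the quartic identity on the `q`-new part of `J₀(N₀ q)`  (statement: helper36)

`frobQuartic_new`: let `q ∤ N₀` be prime, `w = w_q` at level `N₀ q`, `y ∈ J₀(N₀ q)[n]`, `q ∤ n`,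
with `α_* y = 0` and `α_* (w_* y) = 0`.  Then for every Frobenius element `φ` at a place `A | q`

    `φ⁴ y - (q² + 1) φ² y + q² y = 0`.

Input: the function form `FrobToricKeyAt D'` of (P2) at the Atkin–Lehner data with `AuxOK`
(`Bridge/FrobTargets.lean`, `Bridge/AuxLevel.lean`).

Proof (wiring):
* `ζ`, `hζ` from (R1) `norm_expansion_wAt`; `hnorm` from (R3) `exists_norm_expansions_of_new`;
* `frobQuartic_class_of_fun (wAt D hM) hqn ζ hfun y hy hnorm` (`Bridge/FrobClass.lean`) with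
  `hfun` from
  - `AuxOK D`: `frobQuartic_fun (wAt D hM) hq (wAt_wAt ..) (frobToricKeyFor_wAt D hM _ (hkey D _))
      hqn hA hφ (wAt_galFun ..) ζ hζ hf hdiv H1 H2`;
  - `q = 2`, `3 ∤ N₀` (`ℓ = 3`) and `q = 3`, `2 ∤ N₀` (`ℓ = 2`):
    `frobQuartic_fun_wAt_of_aux D D' ..` (`Bridge/AuxNew.lean`) with
    `D'` from `ALData.exists_of_coprime` (`D'.Q = q`, `D'.R = N₀ * ℓ`); `hcop` from `hqn`.
  Model for the case distinction: `AuxLevel.inertiaPowSq_of_toricKeyAt_aux`.   (proved: helper94)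
-/

noncomputable section

namespace Fermat.Agent.BadRed

open ModularCurve AlgebraicCurve Fermat.Agent.F3 Fermat.Agent.F3G Fermat.Agent.GaussInt
  Fermat.Agent.AtkinLehner Fermat.Agent.Kronecker Fermat.Agent.F3I2 Fermat.Agent.F3Deg
  Fermat.Agent.F3DegW

local notation "Qb" => AlgebraicClosure ℚ

set_option synthInstance.maxHeartbeats 400000 in
set_option maxHeartbeats 1000000 in
/-- **the quartic identity on the `q`-new part.** -/
theorem frobQuartic_new {N₀ q : ℕ} [NeZero N₀] [NeZero q] (hq : q.Prime) (hqN : ¬ q ∣ N₀)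
    (hkey : ∀ D' : ALData, AuxLevel.AuxOK D' → FrobToricKeyAt D')
    (D : ALData) (hQ : D.Q = q) (hR : D.R = N₀) (hM : N₀ * q = D.Q * D.R)
    {n : ℕ} (hqn : ¬ q ∣ n)
    {A : ValuationSubring Qb} (hA : A.LiesOverPrime q)
    {φ : Qb ≃ₐ[ℚ] Qb} (hφ : A.IsFrobeniusAt φ q)
    (y : JZero (N₀ * q)) (hy : n • y = 0)
    (h1 : pushAlpha N₀ q y = 0) (h2 : pushAlpha N₀ q (pushWAt D hM y) = 0) :
    φ • φ • φ • φ • y - ((q ^ 2 + 1 : ℕ) : ℤ) • (φ • φ • y) + ((q ^ 2 : ℕ) : ℤ) • y = 0 := by
  subst hQ hR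
  obtain ⟨ζ, hζ, hexp⟩ := norm_expansion_wAt hq hqN D rfl rfl hM
  have hn : n ≠ 0 := by
    rintro rfl
    exact hqn (dvd_zero _)
  have hR0 : 0 < D.R := Nat.pos_of_ne_zero (NeZero.ne D.R)
  have hcop : Nat.Coprime D.Q D.R := (Nat.Prime.coprime_iff_not_dvd hq).mpr hqN
  refine frobQuartic_class_of_fun (wAt D hM) hqn ζ ?_ y hy
    (fun E f hf hE hyE => exists_norm_expansions_of_new D hM ζ hexp hn y h1 h2 E f hf hE hyE)
  intro f u₁ u₂ c₁ c₂ hf hdiv H1 H2
  by_cases haux : AuxLevel.AuxOK D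
  · exact frobQuartic_fun (wAt D hM) hq (wAt_wAt D hM)
      (frobToricKeyFor_wAt D hM hq (hkey D haux)) hqn hA hφ
      (fun z => wAt_galFun D hM φ z) ζ hζ hf hdiv H1 H2
  · by_cases h2 : D.Q = 2
    · -- `q = 2`, `3 ∤ N₀`: descend from the level `3 N`
      have h3R : ¬ 3 ∣ D.R := fun h =>
        haux ⟨fun _ => h, fun h3 => absurd (h2.symm.trans h3) (by norm_num)⟩
      haveI : NeZero (3 : ℕ) := ⟨by norm_num⟩
      have h3M : ¬ 3 ∣ D.R * D.Q := by
        intro h
        rcases (Nat.Prime.dvd_mul Nat.prime_three).mp h with h | h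
        · exact h3R h
        · rw [h2] at h
          norm_num at h
      have hcop' : Nat.Coprime D.Q (D.R * 3) :=
        Nat.Coprime.mul_right hcop (by rw [h2]; norm_num)
      obtain ⟨D', hQ', hR'⟩ := ALData.exists_of_coprime hq.pos (Nat.mul_pos hR0 (by norm_num))
        hcop'
      have haux' : AuxLevel.AuxOK D' :=
        ⟨fun _ => by rw [hR']; exact Dvd.intro_left _ rfl,
          fun h3 => absurd (h2.symm.trans (hQ'.symm.trans h3)) (by norm_num)⟩
      have hM' : D.R * D.Q * 3 = D'.Q * D'.R := by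
        rw [hQ', hR']
        ring
      have hn4 : Nat.Coprime (3 + 1) n := by
        have : Nat.Coprime 2 n :=
          (Nat.Prime.coprime_iff_not_dvd Nat.prime_two).mpr (by rwa [h2] at hqn)
        have e : (3 + 1 : ℕ) = 2 ^ 2 := by norm_num
        rw [e]
        exact Nat.Coprime.pow_left 2 this
      exact frobQuartic_fun_wAt_of_aux D D' Nat.prime_three h3M hM hM' hQ' hR' hq
        (hkey D' haux') hqn hn4 hA hφ ζ hζ hf hdiv H1 H2
    · by_cases h3 : D.Q = 3
      · -- `q = 3`, `2 ∤ N₀`: descend from the level `2 N`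
        have h2R : ¬ 2 ∣ D.R := fun h =>
          haux ⟨fun h2' => absurd h2' h2, fun _ => h⟩
        haveI : NeZero (2 : ℕ) := ⟨by norm_num⟩
        have h2M : ¬ 2 ∣ D.R * D.Q := by
          intro h
          rcases (Nat.Prime.dvd_mul Nat.prime_two).mp h with h | h
          · exact h2R h
          · rw [h3] at h
            norm_num at h
        have hcop' : Nat.Coprime D.Q (D.R * 2) :=
          Nat.Coprime.mul_right hcop (by rw [h3]; norm_num)
        obtain ⟨D', hQ', hR'⟩ := ALData.exists_of_coprime hq.pos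
          (Nat.mul_pos hR0 (by norm_num)) hcop'
        have haux' : AuxLevel.AuxOK D' :=
          ⟨fun h2' => absurd (hQ'.symm.trans h2') h2,
            fun _ => by rw [hR']; exact Dvd.intro_left _ rfl⟩
        have hM' : D.R * D.Q * 2 = D'.Q * D'.R := by
          rw [hQ', hR']
          ring
        have hn3 : Nat.Coprime (2 + 1) n :=
          (Nat.Prime.coprime_iff_not_dvd Nat.prime_three).mpr (by rwa [h3] at hqn)
        exact frobQuartic_fun_wAt_of_aux D D' Nat.prime_two h2M hM hM' hQ' hR' hq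
          (hkey D' haux') hqn hn3 hA hφ ζ hζ hf hdiv H1 H2
      · exact absurd ⟨fun h => absurd h h2, fun h => absurd h h3⟩ haux

end Fermat.Agent.BadRed
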