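import Mathlib
import Fermat.Agent.Lib.BadRed.Bridge.PullAux

/-!
# Cluster T / S33-new, seat P-AUX3: the split subgroup at the level `N` from the level `N ℓ`
(helper94; interface (G1), (G2) of helper11's note)

Let `N = N₀ p`, `p ∤ N₀`, and `ℓ ∤ N₀ p` an auxiliary prime with the transfer core (`ℓ = 2, 3`).
If a subgroup `Sp' ≤ J₀(N₀ ℓ p)` satisfies

* (G1) `x ∈ J₀(N₀ ℓ p)[p^n]`, `α_* x = 0 = α_* w_* x`, `τ ∈ I`  ⟹  `τ x - x ∈ Sp'`,
* (G2) `x ∈ Sp'`, `p x = 0`, `σ ∈ I`, `σ = (ζ ↦ ζ^e)` on `μ_p`  ⟹  `σ x = e x`,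

then `Sp := (α^*)⁻¹ Sp' ≤ J₀(N₀ p)` satisfies (G1) and (G2) at the level `N₀ p`.
Used at `p = 3`, `2 ∤ N`, `ℓ = 2`: the modular nodal package exists only at the level `2 N`
(`AuxOK`), and the norm descent is not available for `3`-power torsion.
-/

set_option autoImplicit false
set_option linter.unusedSectionVars false
set_option linter.style.haveILetI false

noncomputable section

namespace Fermat.Agent.BadRed.PullAux

open ModularCurve AlgebraicCurve Fermat.Agent.F3 Fermat.Agent.F3G Fermat.Agent.GaussInt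
  Fermat.Agent.AtkinLehner Fermat.Agent.Kronecker Fermat.Agent.F3I2 Fermat.Agent.F3Deg
  Fermat.Agent.F3DegW Fermat.Agent.F3T Fermat.Agent.FF Fermat.Agent.BadRed

local notation "Qb" => AlgebraicClosure ℚ

set_option synthInstance.maxHeartbeats 400000
set_option maxHeartbeats 1000000

/-- **(G1)** for a subgroup `Sp` of `J₀(N₀ p)`, the inertia group of `A` and the degeneracy maps
`α_*`, `α_* w_*` (`w = w_p` given by the Atkin–Lehner datum `D`). -/
def SplitG1 (p N₀ : ℕ) [NeZero N₀] [NeZero p] (D : ALData) (hM : N₀ * p = D.Q * D.R)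
    (A : ValuationSubring Qb) (Sp : AddSubgroup (JZero (N₀ * p))) : Prop :=
  ∀ (n : ℕ) (x : JZero (N₀ * p)), p ^ n • x = 0 → pushAlpha N₀ p x = 0 →
    pushAlpha N₀ p (pushWAt D hM x) = 0 →
      ∀ τ : Qb ≃ₐ[ℚ] Qb, τ ∈ A.inertiaSubgroupIn ℚ → τ • x - x ∈ Sp

/-- **(G2)** for a subgroup `Sp` of `J₀(N)` and the inertia group of `A`. -/
def SplitG2 (p N : ℕ) [NeZero N] (A : ValuationSubring Qb) (Sp : AddSubgroup (JZero N)) : Prop :=
  ∀ x ∈ Sp, p • x = 0 → ∀ σ : Qb ≃ₐ[ℚ] Qb, σ ∈ A.inertiaSubgroupIn ℚ →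
    ∀ e : ℕ, (∀ ζ : Qb, ζ ^ p = 1 → σ ζ = ζ ^ e) → σ • x = e • x

/-- the pull-back of a subgroup along `α^*`. -/
def pullSub {N M : ℕ} [NeZero N] [NeZero M] (h : N ∣ M) (Sp' : AddSubgroup (JZero M)) :
    AddSubgroup (JZero N) :=
  Sp'.comap (pullJZero h)

theorem mem_pullSub {N M : ℕ} [NeZero N] [NeZero M] (h : N ∣ M) (Sp' : AddSubgroup (JZero M))
    (x : JZero N) : x ∈ pullSub h Sp' ↔ pullJZero h x ∈ Sp' :=
  Iff.rfl

variable {p N₀ ℓ : ℕ} [NeZero N₀] [NeZero p] [NeZero ℓ]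

/-- **(G1) descends** from the level `N₀ ℓ p` to the level `N₀ p`. -/
theorem splitG1_pull (hp : p.Prime) (hpN : ¬ p ∣ N₀) (hpℓ : ¬ p ∣ ℓ)
    (D D' : ALData) (hM : N₀ * p = D.Q * D.R) (hM' : N₀ * ℓ * p = D'.Q * D'.R)
    (hQ : D'.Q = D.Q) (hR : D'.R = D.R * ℓ) (h : N₀ * p ∣ N₀ * ℓ * p)
    (A : ValuationSubring Qb) (Sp' : AddSubgroup (JZero (N₀ * ℓ * p)))
    (hG1 : SplitG1 p (N₀ * ℓ) D' hM' A Sp') :
    SplitG1 p N₀ D hM A (pullSub h Sp') := by
  intro n x hx h1 h2 τ hτ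
  have hpn : p ^ n ≠ 0 := pow_ne_zero n hp.ne_zero
  obtain ⟨h1', h2'⟩ := isNew_pullJZero hp hpN hpℓ D D' hM hM' hQ hR h hpn x hx h1 h2
  have hx' : p ^ n • pullJZero h x = 0 := by
    rw [← map_nsmul, hx, map_zero]
  have := hG1 n (pullJZero h x) hx' h1' h2' τ hτ
  rw [mem_pullSub, map_sub, pullJZero_smul]
  exact this

/-- **(G2) descends** from the level `M' = r N` to the level `N` (with the transfer core). -/
theorem splitG2_pull (hp : p.Prime) (N r : ℕ) [NeZero N] [NeZero r] (hc : TransferCore N r)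
    {M' : ℕ} [NeZero M'] (hM' : M' = r * N) (h : N ∣ M')
    (A : ValuationSubring Qb) (Sp' : AddSubgroup (JZero M'))
    (hG2 : SplitG2 p M' A Sp') :
    SplitG2 p N A (pullSub h Sp') := by
  intro x hxS hx σ hσ e he
  have hx' : p • pullJZero h x = 0 := by
    rw [← map_nsmul, hx, map_zero]
  have h0 := hG2 (pullJZero h x) ((mem_pullSub h Sp' x).mp hxS) hx' σ hσ e he
  have h1 : pullJZero h (σ • x - e • x) = 0 := by
    rw [map_sub, pullJZero_smul, map_nsmul, h0, sub_self]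
  have h2 : p • (σ • x - e • x) = 0 := by
    have h3 := map_nsmul (DistribSMul.toAddMonoidHom (JZero N) σ) p x
    simp only [DistribSMul.toAddMonoidHom_apply] at h3
    have hσx : p • (σ • x) = 0 := by
      rw [← h3, hx]
      exact smul_zero σ
    have hex : p • (e • x) = 0 := by
      rw [smul_comm p e x, hx, smul_zero]
    rw [nsmul_sub, hσx, hex, sub_zero]
  have := pullJZero_injective_of_torsion N r hc hM' h hp.pos _ h2 h1
  exact sub_eq_zero.mp this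

/-- **P-AUX3**: (G1) and (G2) at the level `N₀ p` from the level `N₀ ℓ p`, `ℓ = 2`. -/
theorem split_pull_two (hp : p.Prime) (hpN : ¬ p ∣ N₀) (hp2 : ¬ p ∣ 2)
    (D D' : ALData) (hM : N₀ * p = D.Q * D.R) (hM' : N₀ * 2 * p = D'.Q * D'.R)
    (hQ : D'.Q = D.Q) (hR : D'.R = D.R * 2)
    (A : ValuationSubring Qb) (Sp' : AddSubgroup (JZero (N₀ * 2 * p)))
    (hG1 : SplitG1 p (N₀ * 2) D' hM' A Sp') (hG2 : SplitG2 p (N₀ * 2 * p) A Sp') :
    ∃ Sp : AddSubgroup (JZero (N₀ * p)), SplitG1 p N₀ D hM A Sp ∧ SplitG2 p (N₀ * p) A Sp := by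
  haveI : NeZero (2 : ℕ) := ⟨by norm_num⟩
  have h : N₀ * p ∣ N₀ * 2 * p := ⟨2, by ring⟩
  exact ⟨pullSub h Sp', splitG1_pull hp hpN hp2 D D' hM hM' hQ hR h A Sp' hG1,
    splitG2_pull hp (N₀ * p) 2 (transferCore_two (N₀ * p)) (by ring) h A Sp' hG2⟩

end Fermat.Agent.BadRed.PullAux
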