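import Fermat.Agent.Lib.BadRed.Bridge.Targets
import Fermat.Agent.S30.Final
import Fermat.Agent.S34.Reduction

set_option autoImplicit false
set_option linter.unusedSectionVars false
set_option linter.style.haveILetI false

/-!
# Cluster T, bridge to S34  (architect helper81)

`TorsionInertiaUnipotent N` (T1: `(σ - 1)² = 0` on `J₀(N)[n]` for inertia at `q ∥ N`) together with
the interface propositions of cluster A at level `N` gives `S34.UnipotentPoints p N S q`, hence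
(helper62's `S34Statement_of_unipotentPoints`) the frozen S34.

Mechanism: the eigen-lattice of `S30/TateAbstract` transports every quadratic relation
`σ² - T σ + ℓ = 0` which holds on all `J[pⁿ]`; we add the "Hecke operator" `T = 2` with eigenvalue
`2` to the index set, so that `(σ - 1)² = 0` is transported as well.  On the lattice `ρ(σ)` is
killed by `X² - t(σ) X + ε(σ)` (`QuadRel`), `ε(σ) = 1` on inertia at `q ≠ p`, hence `t(σ) = 2` and
the characteristic polynomial of the two-dimensional representation is `(X - 1)²`.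
-/

noncomputable section

namespace Fermat.Agent.BadRed

open ModularCurve AlgebraicCurve IsLocalRing Polynomial
open scoped TensorProduct
open Fermat.Agent.S30 Fermat.Agent.S30Tate

/-- the Hecke operators of `S30.HeckeIdx`, plus multiplication by `2` at `none`. -/
def opT (N : ℕ) [NeZero N] (S : Finset ℕ) : Option (HeckeIdx N S) → Module.End ℤ (JZero N)
  | none => (2 : ℤ) • (1 : Module.End ℤ (JZero N))
  | some i => heckeOperatorBar N ⟨i.1, i.2.1⟩

/-- the eigenvalues. -/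
def opC {N : ℕ} [NeZero N] {S : Finset ℕ} {𝒪 : Type} [CommRing 𝒪]
    (χ : CuspForm.heckeAlgebra N 2 (↑S : Set ℕ) →+* 𝒪) : Option (HeckeIdx N S) → 𝒪
  | none => 2
  | some i => χ (CuspForm.heckeAlgebra.T i.2.1 i.2.2.1 i.2.2.2)

/-- the operators on the torsion. -/
def opTt (N : ℕ) [NeZero N] (S : Finset ℕ) (p : ℕ) :
    Option (HeckeIdx N S) → ∀ n : ℕ, F3.Jtors N (p ^ n) →ₗ[ℤ] F3.Jtors N (p ^ n)
  | none, _ => (2 : ℤ) • LinearMap.id
  | some i, n => F3.heckeTors N (p ^ n) ⟨i.1, i.2.1⟩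

/-- A `FrobLattice` which in addition satisfies `(ρ σ - 1)² = 0` on inertia at `q`. -/
theorem exists_frobLattice_unip (N : ℕ) [NeZero N]
    (hE : EigenclassPadic N) (hFin : F3.TorsionFinite N)
    (hUnr : F3.TorsionUnramified N) (hFrob : F3.TorsionFrobQuadratic N)
    (hOpen : F3.TorsionOpenStab N) (hComm : F3.HeckeGaloisComm N)
    (hT1 : TorsionInertiaUnipotent N)
    (p : ℕ) [Fact p.Prime] (S : Finset ℕ) (hpS : p ∈ S)
    (hNS : ∀ q : ℕ, q.Prime → q ∣ N → q ∈ S)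
    (q : ℕ) (hq : q.Prime) (hqp : q ≠ p) (hqN : q ∣ N) (hq2 : ¬ q ^ 2 ∣ N)
    (𝒪 : Type) [CommRing 𝒪] [IsDomain 𝒪] [IsDiscreteValuationRing 𝒪]
    [IsAdicComplete (maximalIdeal 𝒪) 𝒪] [Finite (ResidueField 𝒪)] [CharZero 𝒪]
    (hp𝒪 : (p : 𝒪) ∈ maximalIdeal 𝒪) (χ : CuspForm.heckeAlgebra N 2 (↑S : Set ℕ) →+* 𝒪) :
    ∃ L : FrobLattice p N S 𝒪 (heckeEigenvalue χ),
      ∀ P : ValuationSubring (AlgebraicClosure ℚ), P.LiesOverPrime q →
        ∀ σ ∈ P.inertiaSubgroupIn ℚ,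
          L.ρ σ * L.ρ σ - (2 : 𝒪) • L.ρ σ + (1 : Module.End 𝒪 L.Λ) = 0 := by
  have hp : p.Prime := Fact.out
  obtain ⟨x, hx0, hcompat, heig⟩ := hE p S hpS hNS 𝒪 hp𝒪 χ
  obtain ⟨Λ, _, _, _, _, _, ρ, hcont, hunr, hfrob⟩ :=
    exists_eigenLattice (O := 𝒪) (G := GQ) (J := JZero N) (ι := Option (HeckeIdx N S)) hp hp𝒪
      (opT N S) (opC χ)
      (by
        rintro (_ | i) σ y
        · show (2 : ℤ) • (σ • y) = σ • ((2 : ℤ) • y)
          rw [smul_comm]
        · exact hComm ⟨i.1, i.2.1⟩ σ y)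
      (hFin p hp.pos)
      (fun n => mulPTors N p n)
      (fun n y => mulPTors_coe N p n y)
      (opTt N S p)
      (by
        rintro (_ | i) n y
        · rfl
        · rfl)
      x hx0 hcompat
      (by
        rintro (_ | i) n
        · show ((2 : ℤ) • LinearMap.id : F3.Jtors N (p ^ n) →ₗ[ℤ] F3.Jtors N (p ^ n)).baseChange 𝒪
              (x n) = (2 : 𝒪) • x n
          rw [LinearMap.baseChange_smul, LinearMap.baseChange_id, LinearMap.smul_apply,
            LinearMap.id_apply]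
          have h2 : ((2 : ℤ) : 𝒪) = 2 := by norm_num
          rw [← h2, Int.cast_smul_eq_zsmul]
        · exact heig n i.1 i.2.1 i.2.2.1 i.2.2.2)
  refine ⟨{
    Λ := Λ
    ρ := ρ
    cont := ?_
    unram := ?_
    frob := ?_ }, ?_⟩
  · -- adic continuity
    intro n
    have hpos : 0 < p ^ n := pow_pos hp.pos n
    haveI : Finite {y : JZero N // p ^ n • y = 0} := (hFin (p ^ n) hpos).to_subtype
    choose L hLfin hL using fun y : {y : JZero N // p ^ n • y = 0} => hOpen (p ^ n) hpos y.1 y.2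
    haveI : ∀ y, FiniteDimensional ℚ (L y) := hLfin
    refine ⟨⨆ y, L y, inferInstance, fun σ hσ v => ?_⟩
    have hfix : ∀ y : JZero N, p ^ n • y = 0 → σ • y = y := fun y hy =>
      hL ⟨y, hy⟩ σ (fun z hz => hσ z (le_iSup L ⟨y, hy⟩ hz))
    exact hcont n σ hfix v
  · -- unramified
    intro q' hq' hqN' hqp' P hP σ hσ
    exact hunr σ (fun n y hy =>
      hUnr (p ^ n) q' hq' (not_dvd_mul_pow hp hq' hqN' hqp' n) P hP σ hσ y hy)
  · -- Frobenius relation
    intro ℓ hℓ hℓS A hA σ hσ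
    have hℓS' : ℓ ∉ (↑S : Set ℕ) := fun h => hℓS (Finset.mem_coe.mp h)
    have hℓN : ¬ ℓ ∣ N := fun h => hℓS (hNS ℓ hℓ h)
    have hℓp : ℓ ≠ p := fun h => hℓS (h ▸ hpS)
    rw [heckeEigenvalue_eq χ hℓ hℓN hℓS']
    exact hfrob σ (some (⟨ℓ, hℓ, hℓN, hℓS'⟩ : HeckeIdx N S)) ℓ (fun n y hy =>
      hFrob (p ^ n) ℓ hℓ (not_dvd_mul_pow hp hℓ hℓN hℓp n) A hA σ hσ y hy)
  · -- unipotency
    intro P hP σ hσ
    have hqpn : ∀ n : ℕ, ¬ q ∣ p ^ n := fun n h =>
      hqp ((Nat.prime_dvd_prime_iff_eq hq hp).mp (hq.dvd_of_dvd_pow h))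
    have h := hfrob σ none 1 (fun n y hy => by
      have h1 := hT1 (p ^ n) q hq hqN hq2 (hqpn n) P hP σ hσ y hy
      show σ • σ • y - (2 : ℤ) • (1 : Module.End ℤ (JZero N)) (σ • y) + 1 • y = 0
      rw [one_smul, Module.End.one_apply]
      exact h1)
    show ρ σ * ρ σ - (2 : 𝒪) • ρ σ + (1 : Module.End 𝒪 Λ) = 0
    have h' : ρ σ * ρ σ - opC χ none • ρ σ + ((1 : ℕ) : 𝒪) • (1 : Module.End 𝒪 Λ) = 0 := h
    rw [Nat.cast_one, one_smul] at h'
    exact h'

/-- **T1 ⟹ `UnipotentPoints`.** -/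
theorem unipotentPoints_of_interfaces (N : ℕ) [NeZero N]
    (hE : EigenclassPadic N) (hFin : F3.TorsionFinite N)
    (hUnr : F3.TorsionUnramified N) (hFrob : F3.TorsionFrobQuadratic N)
    (hOpen : F3.TorsionOpenStab N) (hComm : F3.HeckeGaloisComm N)
    (hT1 : TorsionInertiaUnipotent N)
    (p : ℕ) (hp : p.Prime) (S : Finset ℕ) (hpS : p ∈ S)
    (hNS : ∀ q : ℕ, q.Prime → q ∣ N → q ∈ S)
    (q : ℕ) (hq : q.Prime) (hqp : q ≠ p) (hqN : q ∣ N) (hq2 : ¬ q ^ 2 ∣ N) :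
    Fermat.Agent.S34.UnipotentPoints p N S q := by
  haveI : Fact p.Prime := ⟨hp⟩
  intro 𝒪 _ _ _ _ _ _ hp𝒪 χ
  obtain ⟨L, hunip⟩ := exists_frobLattice_unip N hE hFin hUnr hFrob hOpen hComm hT1 p S hpS hNS
    q hq hqp hqN hq2 𝒪 hp𝒪 χ
  let E : CycloCharData p 𝒪 := Fermat.Agent.Cyclo.cycloCharData (p := p) (𝒪 := 𝒪) hp𝒪
  obtain ⟨t, hQ, ht⟩ := exists_quadRel_of_frobLattice F3.frobDensityLite hpS (heckeEigenvalue χ) L E
  obtain ⟨V, iV1, iV2, iV3, iV4, ρ', hfin, hchar, hcont, hker⟩ :=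
    repConclusion_of_quadRel L.ρ E.ε t hQ complexConjugation complexConjugation_mul_self E.conj
  have hadic : GaloisActionIsAdicContinuous 𝒪 ρ' := by
    intro n
    obtain ⟨L₁, hL₁fin, hL₁⟩ := L.cont n
    obtain ⟨L₂, hL₂fin, hL₂⟩ := E.level n
    refine ⟨L₁ ⊔ L₂, IntermediateField.finiteDimensional_sup L₁ L₂, ?_⟩
    intro σ hσ v
    exact hcont n σ (hL₁ σ (fun x hx => hσ x (le_sup_left (a := L₁) (b := L₂) hx)))
      (hL₂ σ (fun x hx => hσ x (le_sup_right (a := L₁) (b := L₂) hx))) v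
  refine ⟨𝒪, inferInstance, inferInstance, inferInstance, Algebra.id 𝒪, Function.injective_id,
    { V := V, finrank_eq := hfin, ρ := ρ', isAdicContinuous := hadic }, ?_, ?_⟩
  · intro ℓ hℓ hℓN hℓS A hA σ hσ
    have hℓS' : ℓ ∉ S := fun h => hℓS (Finset.mem_coe.mpr h)
    have hℓp : ℓ ≠ p := fun h => hℓS' (h ▸ hpS)
    show LinearMap.charpoly (ρ' σ) = _
    rw [hchar σ, ht ℓ hℓ hℓS' A hA σ hσ, E.frob ℓ hℓ hℓp A hA σ hσ,
      heckeEigenvalue_eq χ hℓ hℓN hℓS]
    rfl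
  · intro P hP σ hσ
    show LinearMap.charpoly (ρ' σ) = (X - 1) ^ 2
    have hε : E.ε σ = 1 := E.inertia q hq hqp P hP σ hσ
    have h1 := hQ σ
    rw [hε, Units.val_one, one_smul] at h1
    have h2 := hunip P hP σ hσ
    have h4 : (t σ - 2) • L.ρ σ = 0 := by
      have : (t σ - 2) • L.ρ σ =
          (L.ρ σ * L.ρ σ - (2 : 𝒪) • L.ρ σ + (1 : Module.End 𝒪 L.Λ))
            - (L.ρ σ * L.ρ σ - t σ • L.ρ σ + (1 : Module.End 𝒪 L.Λ)) := by
        rw [sub_smul]; abel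
      rw [this, h1, h2, sub_zero]
    obtain ⟨x₀, hx₀⟩ := exists_ne (0 : L.Λ)
    have h5 : (t σ - 2) • (L.ρ σ x₀) = 0 := by
      have := congrArg (fun f : Module.End 𝒪 L.Λ => f x₀) h4
      simpa using this
    have h6 : L.ρ σ x₀ ≠ 0 := fun h =>
      hx₀ (rho_injective L.ρ σ (by rw [h, map_zero]))
    have h7 : t σ = 2 := by
      rcases smul_eq_zero.mp h5 with h | h
      · exact sub_eq_zero.mp h
      · exact absurd h h6
    rw [hchar σ, h7, hε, Units.val_one]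
    simp only [map_one]
    have : (C (2 : 𝒪) : 𝒪[X]) = 2 := map_ofNat C 2
    rw [this]
    ring

/-- **S34 from T1 and the interface propositions of cluster A** (all levels). -/
theorem s34Statement_of_interfaces
    (h : ∀ (N : ℕ) [NeZero N], EigenclassPadic N ∧ F3.TorsionFinite N ∧ F3.TorsionUnramified N ∧
      F3.TorsionFrobQuadratic N ∧ F3.TorsionOpenStab N ∧ F3.HeckeGaloisComm N ∧
      TorsionInertiaUnipotent N) :
    Fermat.Agent.S34.S34Statement :=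
  Fermat.Agent.S34.S34Statement_of_unipotentPoints
    (fun p N _ S q hp hpS hNS hq hqp hqN hq2 => by
      obtain ⟨hE, hFin, hUnr, hFrob, hOpen, hComm, hT1⟩ := h N
      exact unipotentPoints_of_interfaces N hE hFin hUnr hFrob hOpen hComm hT1 p hp S hpS hNS
        q hq hqp hqN hq2)

end Fermat.Agent.BadRed
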