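import Fermat.Agent.Lib.BadRed.Bridge.S34Final
import Fermat.Agent.Lib.BadRed.Bridge.AuxLevel

set_option autoImplicit false

/-!
# Cluster T, final bridge with the auxiliary level  (helper94, for the wiring of helper81)

`s34Statement_of_modularNodal_aux` : the statement S34 follows from the existence of the modular
nodal packages at the Atkin–Lehner data `D` with `AuxOK D` ONLY
(`D.Q = 2 → 3 ∣ D.R`, `D.Q = 3 → 2 ∣ D.R`): the remaining data are reached by the norm descent of
`Bridge/AuxLevel.lean`.
-/

noncomputable section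

namespace Fermat.Agent.BadRed

open ModularCurve AlgebraicCurve Fermat.Agent.F3 Fermat.Agent.F3G Fermat.Agent.GaussInt
  Fermat.Agent.AtkinLehner

local notation "Qb" => AlgebraicClosure ℚ

/-- `InertiaPowSq` at every level from the modular nodal packages at the data with `AuxOK`. -/
theorem inertiaPowSq_of_modularNodal_aux (N : ℕ) [NeZero N]
    (h : ∀ D : ALData, AuxLevel.AuxOK D → D.Q.Prime → ∀ A : ValuationSubring Qb,
      A.LiesOverPrime D.Q → ∃ M : ModularNodal D A, AbstractToricKeyStatement M.N) :
    InertiaPowSq N :=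
  AuxLevel.inertiaPowSq_of_toricKeyAt_aux (fun D _ => gaussSepAt D)
    (fun D hD => toricKeyAt_of_modularNodal D (h D hD)) N

/-- `T1` at every level from the modular nodal packages at the data with `AuxOK`. -/
theorem torsionInertiaUnipotent_of_modularNodal_aux (N : ℕ) [NeZero N]
    (h : ∀ D : ALData, AuxLevel.AuxOK D → D.Q.Prime → ∀ A : ValuationSubring Qb,
      A.LiesOverPrime D.Q → ∃ M : ModularNodal D A, AbstractToricKeyStatement M.N) :
    TorsionInertiaUnipotent N :=
  torsionInertiaUnipotent_of_inertiaPowSq (inertiaPowSq_of_modularNodal_aux N h)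

/-- **S34 from the modular nodal packages at the data with `AuxOK`.** -/
theorem s34Statement_of_modularNodal_aux
    (h : ∀ D : ALData, AuxLevel.AuxOK D → D.Q.Prime → ∀ A : ValuationSubring Qb,
      A.LiesOverPrime D.Q → ∃ M : ModularNodal D A, AbstractToricKeyStatement M.N) :
    Fermat.Agent.S34.S34Statement :=
  s34Statement_of_interfaces (fun N _ =>
    ⟨Fermat.Agent.F3W.eigenclassPadic_of_kappaAllW (Fermat.Agent.F3I2.kappaAll N),
      Fermat.Agent.F3TF.torsionFinite N,
      Fermat.Agent.GaussInt.torsionUnramified_of_keyLemmaAt (Fermat.Agent.GaussInt.keyLemmaAt_all N),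
      Fermat.Agent.GaussIntFP.torsionFrobQuadratic_of_keyLemmaAt
        (Fermat.Agent.GaussInt.keyLemmaAt_all N) (Fermat.Agent.F3W.heckeInputs_all N),
      Fermat.Agent.F3.torsionOpenStab N, Fermat.Agent.F3G.heckeGaloisComm N,
      torsionInertiaUnipotent_of_modularNodal_aux N h⟩)

end Fermat.Agent.BadRed
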